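/-
S18lib / Weak / Datum  (helper2)

The WEAK (place-map free) reduction datum: `RedDatum` without `r`, `deg_r`, `mapDomain_div`.
This is what survives at the auxiliary level `F' = F(t)` of the squeeze (memo #2 (b2)): the Gauss
valuation ring `O`, the reduction `red : O →+* Fk`, `O ∩ L = A`, value group of `O` = value group
of `A`.  All the lemmas of `Setup/DatumLemmas`, `Setup/Orthonormal`, `Frame/*` only used these
fields; they are re-exported for `GaussDatum` in `Weak/Lemmas.lean`, `Weak/Frame.lean`.
-/
import Fermat.Agent.S18lib.Setup.Datum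

set_option autoImplicit false

noncomputable section

namespace Fermat.Agent.S18lib

open AlgebraicCurve

/-- Weak reduction datum: the Gauss valuation ring and the reduction map, no place map. -/
structure GaussDatum {L : Type*} [Field L] (A : ValuationSubring L)
    (F : Type*) [Field F] [Algebra L F]
    (Fk : Type*) [Field Fk] [Algebra (IsLocalRing.ResidueField A) Fk] where
  /-- the valuation ring of the Gauss valuation on `F` -/
  O : ValuationSubring F
  /-- `O ∩ L = A` -/
  algebraMap_mem_iff : ∀ c : L, algebraMap L F c ∈ O ↔ c ∈ A
  /-- the reduction map -/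
  red : O →+* Fk
  red_surjective : Function.Surjective red
  /-- reduction is compatible with the residue map on constants -/
  red_algebraMap : ∀ (a : A) (h : algebraMap L F (a : L) ∈ O),
    red ⟨algebraMap L F (a : L), h⟩ = algebraMap (IsLocalRing.ResidueField A) Fk (IsLocalRing.residue A a)
  /-- value group of `O` = value group of `A`: every nonzero `f` is a constant times a unit of `O` -/
  exists_const_mul_isUnit : ∀ f : F, f ≠ 0 →
    ∃ c : L, c ≠ 0 ∧ ∃ u : Oˣ, algebraMap L F c * f = ((u : O) : F)

variable {L : Type*} [Field L] {A : ValuationSubring L}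
variable {F : Type*} [Field F] [Algebra L F]
variable {Fk : Type*} [Field Fk] [Algebra (IsLocalRing.ResidueField A) Fk]

/-- forget the place map -/
def RedDatum.toGaussDatum (D : RedDatum A F Fk) : GaussDatum A F Fk where
  O := D.O
  algebraMap_mem_iff := D.algebraMap_mem_iff
  red := D.red
  red_surjective := D.red_surjective
  red_algebraMap := D.red_algebraMap
  exists_const_mul_isUnit := D.exists_const_mul_isUnit

namespace GaussDatum

/-- total version of the reduction map: `0` outside `O` -/
def redF (D : GaussDatum A F Fk) (y : F) : Fk :=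
  letI := Classical.propDecidable
  if h : y ∈ D.O then D.red ⟨y, h⟩ else 0

theorem redF_of_mem (D : GaussDatum A F Fk) {y : F} (h : y ∈ D.O) : D.redF y = D.red ⟨y, h⟩ := by
  classical
  rw [redF, dif_pos h]

theorem redF_of_not_mem (D : GaussDatum A F Fk) {y : F} (h : y ∉ D.O) : D.redF y = 0 := by
  classical
  rw [redF, dif_neg h]

/-- A family in `F` is *orthonormal* if it lies in `O` and its reductions are `k`-linearly
independent. -/
def IsOrthonormal (D : GaussDatum A F Fk) {ι : Type*} (b : ι → F) : Prop :=
  (∀ i, b i ∈ D.O) ∧ LinearIndependent (IsLocalRing.ResidueField A) (fun i => D.redF (b i))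

/-- every finite dimensional `L`-subspace of `F` has an orthonormal basis. -/
def HasOrthonormalBases (D : GaussDatum A F Fk) : Prop :=
  ∀ (W : Submodule L F), FiniteDimensional L W →
    ∃ b : Fin (Module.finrank L W) → F, (∀ i, b i ∈ W) ∧ D.IsOrthonormal b

end GaussDatum

namespace RedDatum

@[simp] theorem toGaussDatum_O (D : RedDatum A F Fk) : D.toGaussDatum.O = D.O := rfl

@[simp] theorem toGaussDatum_red (D : RedDatum A F Fk) : D.toGaussDatum.red = D.red := rfl

@[simp] theorem toGaussDatum_redF (D : RedDatum A F Fk) (y : F) :
    D.toGaussDatum.redF y = D.redF y := rfl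

theorem toGaussDatum_isOrthonormal_iff (D : RedDatum A F Fk) {ι : Type*} (b : ι → F) :
    D.toGaussDatum.IsOrthonormal b ↔ D.IsOrthonormal b := Iff.rfl

theorem toGaussDatum_hasOrthonormalBases_iff (D : RedDatum A F Fk) :
    D.toGaussDatum.HasOrthonormalBases ↔ D.HasOrthonormalBases := Iff.rfl

end RedDatum

end Fermat.Agent.S18lib
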