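/-
S18lib / Weak / IntegralRed  (helper2)

**Reduction preserves integrality** (core of package (W-c), place-map free).
`G : GaussDatum A F Fk` with a frame `(z, θ)`.  If `f ∈ O` is integral over `L[z]` then its reduction
`f̄` is integral over `k[z̄]`.

Proof: `M = L[z][f]` is a finite `L[z]`-module stable under `f`; a common denominator `d = D(z)`
(a unit of `O` after scaling) brings `M` into `Θ = ⊕ L[z] θ_j`; elements of `Θ ∩ O` have coefficients
in `A[z]` (orthonormality of the monomials `z^a θ_j`), so `red (M ∩ O) ⊆ d̄⁻¹ ⊕ k[z̄] θ̄_j` is a finite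
`k[z̄]`-module stable under `f̄`.
-/
import Fermat.Agent.S18lib.Weak.Frame

set_option autoImplicit false

noncomputable section

namespace Fermat.Agent.S18lib.WFrame

open Module AlgebraicCurve Polynomial
open Fermat.Agent.S18lib.Frame (monomialsFam)

variable {L : Type*} [Field L] {A : ValuationSubring L}
variable {F : Type*} [Field F] [Algebra L F]
variable {Fk : Type*} [Field Fk] [Algebra (IsLocalRing.ResidueField A) Fk]
variable {G : GaussDatum A F Fk} {z : F} {n : ℕ} {θ : Fin n → F}

local notation "k" => IsLocalRing.ResidueField A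

/-- an `L[z]`-combination of the `θ_j` as an `L`-combination of the monomials -/
theorem sum_aeval_eq_sum_monomials (p : Fin n → L[X]) {t : ℕ}
    (ht : ∀ j, (p j).natDegree < t + 1) :
    ∑ j, aeval z (p j) * θ j
      = ∑ m : Fin (t + 1) × Fin n, algebraMap L F ((p m.2).coeff m.1) * monomialsFam z θ t m := by
  rw [Fintype.sum_prod_type_right]
  refine Finset.sum_congr rfl fun j _ => ?_
  rw [aeval_eq_sum_range' (ht j), Finset.sum_mul, Finset.sum_range]
  refine Finset.sum_congr rfl fun a _ => ?_
  simp only [monomialsFam, Algebra.smul_def]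
  ring

/-- coefficients of an `L[z]`-combination of the frame lying in `O` are integral -/
theorem IsFrameFamily.coeff_mem_of_sum_aeval_mem (h : IsFrameFamily G z θ) (p : Fin n → L[X])
    (hw : ∑ j, aeval z (p j) * θ j ∈ G.O) (j : Fin n) (a : ℕ) : (p j).coeff a ∈ A := by
  classical
  set t := Finset.univ.sup (fun j => (p j).natDegree) with ht
  have hdeg : ∀ j, (p j).natDegree < t + 1 := fun j =>
    Nat.lt_succ_of_le (Finset.le_sup (f := fun j => (p j).natDegree) (Finset.mem_univ j))
  have hb := h.isOrthonormal_monomials t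
  rw [sum_aeval_eq_sum_monomials p hdeg] at hw
  have hcA := (hb.sum_mem_iff (fun m : Fin (t + 1) × Fin n => (p m.2).coeff m.1)).1 hw
  by_cases ha : a < t + 1
  · exact hcA (⟨a, ha⟩, j)
  · rw [coeff_eq_zero_of_natDegree_lt (lt_of_lt_of_le (hdeg j) (not_lt.1 ha))]
    exact A.zero_mem

/-- the reduction of an `L[z]`-combination of the frame lying in `O` is a `k[z̄]`-combination of
the reduced frame -/
theorem IsFrameFamily.redF_sum_aeval_mem (h : IsFrameFamily G z θ) (p : Fin n → L[X])
    (hw : ∑ j, aeval z (p j) * θ j ∈ G.O) :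
    G.redF (∑ j, aeval z (p j) * θ j) ∈
      Submodule.span (Algebra.adjoin k ({G.redF z} : Set Fk))
        (Set.range fun j => G.redF (θ j)) := by
  classical
  set t := Finset.univ.sup (fun j => (p j).natDegree) with ht
  have hdeg : ∀ j, (p j).natDegree < t + 1 := fun j =>
    Nat.lt_succ_of_le (Finset.le_sup (f := fun j => (p j).natDegree) (Finset.mem_univ j))
  have hb := h.isOrthonormal_monomials t
  rw [sum_aeval_eq_sum_monomials p hdeg] at hw ⊢
  have hcA := (hb.sum_mem_iff (fun m : Fin (t + 1) × Fin n => (p m.2).coeff m.1)).1 hw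
  have hred := hb.redF_sum (fun m => (⟨(p m.2).coeff m.1, hcA m⟩ : A))
  rw [hred]
  refine Submodule.sum_mem _ fun m _ => ?_
  have h1 : G.redF (monomialsFam z θ t m) = G.redF z ^ (m.1 : ℕ) * G.redF (θ m.2) := by
    simp only [monomialsFam]
    rw [G.redF_mul (G.O.pow_mem h.y_mem _) (h.θ_mem _), G.redF_pow h.y_mem]
  rw [h1]
  set r : Algebra.adjoin k ({G.redF z} : Set Fk) :=
    algebraMap k _ (IsLocalRing.residue A ⟨(p m.2).coeff m.1, hcA m⟩)
      * ⟨G.redF z, Algebra.subset_adjoin rfl⟩ ^ (m.1 : ℕ) with hr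
  have h2 : IsLocalRing.residue A ⟨(p m.2).coeff m.1, hcA m⟩
        • (G.redF z ^ (m.1 : ℕ) * G.redF (θ m.2)) = r • G.redF (θ m.2) := by
    rw [hr, Subalgebra.smul_def, Algebra.smul_def]
    simp only [Subalgebra.coe_mul, Subalgebra.coe_pow, Subalgebra.coe_algebraMap, smul_eq_mul]
    ring
  rw [h2]
  exact Submodule.smul_mem _ _ (Submodule.subset_span ⟨m.2, rfl⟩)

/-- `z` is transcendental over `L`: nonzero polynomials in `z` are nonzero -/
theorem IsFrameFamily.aeval_ne_zero (h : IsFrameFamily G z θ) {D : L[X]} (hD : D ≠ 0) :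
    aeval z D ≠ 0 := by
  classical
  intro h0
  let i₀ : Fin n := ⟨0, h.n_pos⟩
  -- the combination `D(z) θ_{i₀}` vanishes, so all its coefficients vanish
  have hli := (h.isOrthonormal_monomials D.natDegree).linearIndependent
  have hsum : ∑ j, aeval z ((fun j => if j = i₀ then D else 0) j) * θ j = 0 := by
    rw [Finset.sum_eq_single i₀]
    · simp [h0]
    · intro j _ hj; simp [hj]
    · intro hj; exact absurd (Finset.mem_univ _) hj
  have hdeg : ∀ j, ((fun j => if j = i₀ then D else 0) j).natDegree < D.natDegree + 1 := by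
    intro j
    by_cases hj : j = i₀
    · simp [hj]
    · simp [hj]
  rw [sum_aeval_eq_sum_monomials _ hdeg] at hsum
  have hsum' : ∑ m : Fin (D.natDegree + 1) × Fin n,
      ((fun j => if j = i₀ then D else 0) m.2).coeff m.1 • monomialsFam z θ D.natDegree m = 0 := by
    simpa [Algebra.smul_def] using hsum
  have hc := Fintype.linearIndependent_iff.1 hli _ hsum'
  apply hD
  ext a
  rw [coeff_zero]
  by_cases ha : a < D.natDegree + 1
  · have := hc (⟨a, ha⟩, i₀)
    simpa using this
  · exact coeff_eq_zero_of_natDegree_lt (by omega)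


/-- elements of the `L[z]`-span of the frame are `L[z]`-combinations with polynomial coefficients -/
theorem exists_poly_of_mem_span {w : F}
    (hw : w ∈ Submodule.span (Algebra.adjoin L ({z} : Set F)) (Set.range θ)) :
    ∃ p : Fin n → L[X], w = ∑ j, aeval z (p j) * θ j := by
  obtain ⟨c, rfl⟩ := (Submodule.mem_span_range_iff_exists_fun _).1 hw
  have hc : ∀ j, ∃ q : L[X], aeval z q = ((c j : Algebra.adjoin L ({z} : Set F)) : F) := by
    intro j
    have h1 : ((c j : Algebra.adjoin L ({z} : Set F)) : F) ∈ (aeval z : L[X] →ₐ[L] F).range := by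
      rw [← Algebra.adjoin_singleton_eq_range_aeval]
      exact (c j).2
    exact h1
  choose q hq using hc
  exact ⟨q, Finset.sum_congr rfl fun j _ => by rw [hq j, Subalgebra.smul_def, smul_eq_mul]⟩

/-- common denominator: a finitely generated `L[z]`-submodule of `F` is brought into the
`L[z]`-span of the frame by a nonzero polynomial in `z` -/
theorem IsFrameFamily.exists_denominator (h : IsFrameFamily G z θ)
    (M : Submodule (Algebra.adjoin L ({z} : Set F)) F) (hM : M.FG) :
    ∃ D : L[X], D ≠ 0 ∧ ∀ x ∈ M,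
      x * aeval z D ∈ Submodule.span (Algebra.adjoin L ({z} : Set F)) (Set.range θ) := by
  classical
  obtain ⟨S, rfl⟩ := hM
  have hrep := h.exists_repr
  choose q p hq hqp using hrep
  -- elements of `L[z]`
  have hmemR : ∀ g : L[X], aeval z g ∈ Algebra.adjoin L ({z} : Set F) := by
    intro g
    rw [Algebra.adjoin_singleton_eq_range_aeval]
    exact ⟨g, rfl⟩
  have hΘmul : ∀ (w : F) (g : L[X]),
      w ∈ Submodule.span (Algebra.adjoin L ({z} : Set F)) (Set.range θ) →
      w * aeval z g ∈ Submodule.span (Algebra.adjoin L ({z} : Set F)) (Set.range θ) := by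
    intro w g hw
    have : w * aeval z g = (⟨aeval z g, hmemR g⟩ : Algebra.adjoin L ({z} : Set F)) • w := by
      rw [Subalgebra.smul_def, smul_eq_mul, mul_comm]
    rw [this]
    exact Submodule.smul_mem _ _ hw
  refine ⟨∏ s ∈ S, q s, Finset.prod_ne_zero_iff.2 fun s _ => hq s, ?_⟩
  intro x hx
  induction hx using Submodule.span_induction with
  | mem s hs =>
    have hs' : s ∈ S := hs
    rw [← Finset.mul_prod_erase S q hs', map_mul, ← mul_assoc, hqp s]
    apply hΘmul
    refine Submodule.sum_mem _ fun j _ => ?_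
    have : aeval z (p s j) * θ j
        = (⟨aeval z (p s j), hmemR _⟩ : Algebra.adjoin L ({z} : Set F)) • θ j := by
      rw [Subalgebra.smul_def, smul_eq_mul]
    rw [this]
    exact Submodule.smul_mem _ _ (Submodule.subset_span ⟨j, rfl⟩)
  | zero => rw [zero_mul]; exact Submodule.zero_mem _
  | add x y _ _ hx hy => rw [add_mul]; exact Submodule.add_mem _ hx hy
  | smul r x _ hx =>
    rw [smul_mul_assoc]
    exact Submodule.smul_mem _ _ hx

/-- **reduction preserves integrality**: `f ∈ O` integral over `L[z]` ⇒ `f̄` integral over `k[z̄]` -/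
theorem IsFrameFamily.isIntegral_redF (h : IsFrameFamily G z θ) {f : F} (hfO : f ∈ G.O)
    (hf : IsIntegral (Algebra.adjoin L ({z} : Set F)) f) :
    IsIntegral (Algebra.adjoin k ({G.redF z} : Set Fk)) (G.redF f) := by
  classical
  -- the module `M = L[z][f]`
  set M : Submodule (Algebra.adjoin L ({z} : Set F)) F :=
    Subalgebra.toSubmodule (Algebra.adjoin (Algebra.adjoin L ({z} : Set F)) ({f} : Set F)) with hMdef
  have hMfg : M.FG := hf.fg_adjoin_singleton
  have hM1 : (1 : F) ∈ M := Subalgebra.one_mem _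
  have hMf : ∀ x ∈ M, f * x ∈ M := fun x hx =>
    Subalgebra.mul_mem _ (Algebra.subset_adjoin rfl) hx
  -- common denominator, scaled to a unit of `O`
  obtain ⟨D, hD0, hD⟩ := h.exists_denominator M hMfg
  obtain ⟨c, hc, hcd⟩ := G.exists_const_mul_redF_ne_zero (h.aeval_ne_zero hD0)
  set d : F := algebraMap L F c * aeval z D with hd
  have hdO : d ∈ G.O := G.mem_of_redF_ne_zero hcd
  have hdM : ∀ x ∈ M, x * d ∈
      Submodule.span (Algebra.adjoin L ({z} : Set F)) (Set.range θ) := by
    intro x hx
    have h1 := hD x hx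
    have : x * d = (algebraMap L (Algebra.adjoin L ({z} : Set F)) c) • (x * aeval z D) := by
      rw [hd, Subalgebra.smul_def, smul_eq_mul, Subalgebra.coe_algebraMap]
      ring
    rw [this]
    exact Submodule.smul_mem _ _ h1
  -- the reduced module
  set Rk := Algebra.adjoin k ({G.redF z} : Set Fk) with hRk
  set Mbar : Submodule Rk Fk := Submodule.span Rk (G.redF '' {x | x ∈ M ∧ x ∈ G.O}) with hMbar
  set Θbar : Submodule Rk Fk := Submodule.span Rk (Set.range fun j => G.redF (θ j)) with hΘbar
  -- noetherianity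
  have : IsNoetherianRing Rk := by
    have : (Algebra.adjoin k ({G.redF z} : Set Fk)).FG := by
      have := Subalgebra.fg_adjoin_finset (R := k) ({G.redF z} : Finset Fk)
      simpa using this
    exact isNoetherianRing_of_fg this
  -- `Mbar ≤ d̄⁻¹ Θbar`
  let μ : Fk →ₗ[Rk] Fk := LinearMap.mulLeft Rk (G.redF d)⁻¹
  have hle : Mbar ≤ Θbar.map μ := by
    rw [hMbar, Submodule.span_le]
    rintro _ ⟨x, ⟨hxM, hxO⟩, rfl⟩
    obtain ⟨p, hp⟩ := exists_poly_of_mem_span (hdM x hxM)
    have hw : ∑ j, aeval z (p j) * θ j ∈ G.O := by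
      rw [← hp]; exact G.O.mul_mem _ _ hxO hdO
    have h1 := h.redF_sum_aeval_mem p hw
    rw [← hp, G.redF_mul hxO hdO] at h1
    refine ⟨G.redF x * G.redF d, h1, ?_⟩
    show (G.redF d)⁻¹ * (G.redF x * G.redF d) = G.redF x
    field_simp
  have hΘfg : Θbar.FG := Submodule.fg_span (Set.finite_range _)
  have hmapfg : (Θbar.map μ).FG := hΘfg.map μ
  have hMbarfg : Mbar.FG :=
    (isNoetherian_submodule.1 (isNoetherian_of_fg_of_noetherian _ hmapfg)) Mbar hle
  -- `Mbar ≠ ⊥`
  have hne : Mbar ≠ ⊥ := by
    intro h0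
    have h1 : G.redF 1 ∈ Mbar :=
      Submodule.subset_span ⟨1, ⟨hM1, G.O.one_mem⟩, rfl⟩
    rw [h0, Submodule.mem_bot, G.redF_one] at h1
    exact one_ne_zero h1
  -- stability under `f̄`
  have hstab : ∀ y ∈ Mbar, G.redF f • y ∈ Mbar := by
    intro y hy
    induction hy using Submodule.span_induction with
    | mem y hy =>
      obtain ⟨x, ⟨hxM, hxO⟩, rfl⟩ := hy
      rw [smul_eq_mul, ← G.redF_mul hfO hxO]
      exact Submodule.subset_span ⟨f * x, ⟨hMf x hxM, G.O.mul_mem _ _ hfO hxO⟩, rfl⟩
    | zero => rw [smul_zero]; exact Submodule.zero_mem _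
    | add x y _ _ hx hy => rw [smul_add]; exact Submodule.add_mem _ hx hy
    | smul r x _ hx =>
      rw [smul_comm]
      exact Submodule.smul_mem _ _ hx
  exact isIntegral_of_smul_mem_submodule Mbar hne hMbarfg (G.redF f) hstab

end Fermat.Agent.S18lib.WFrame
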