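/-
S18lib / Weak / FrameInv  (helper2)

A frame `(y, θ)` is also a frame for `(y⁻¹, θ)` (same field `L(y) = L(y⁻¹)`, same Gauss valuation).
Used for the chart at infinity in the weak genus inequality.
-/
import Fermat.Agent.S18lib.Weak.IntegralRed

set_option autoImplicit false

noncomputable section

namespace Fermat.Agent.S18lib.WFrame

open Module AlgebraicCurve Polynomial

variable {L : Type*} [Field L] {A : ValuationSubring L}
variable {F : Type*} [Field F] [Algebra L F]
variable {Fk : Type*} [Field Fk] [Algebra (IsLocalRing.ResidueField A) Fk]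
variable {G : GaussDatum A F Fk} {y : F} {n : ℕ} {θ : Fin n → F}

local notation "k" => IsLocalRing.ResidueField A

theorem IsFrameFamily.redF_y_ne_zero (h : IsFrameFamily G y θ) : G.redF y ≠ 0 := by
  intro h0
  have := h.red_indep.ne_zero ((1, ⟨0, h.n_pos⟩) : ℕ × Fin n)
  simp [h0] at this

theorem IsFrameFamily.y_ne_zero (h : IsFrameFamily G y θ) : y ≠ 0 := by
  rintro rfl
  exact h.redF_y_ne_zero G.redF_zero

/-- `aeval y⁻¹ (reflect N p) * y ^ N = aeval y p` -/
theorem aeval_inv_reflect_mul_pow (hy : y ≠ 0) (N : ℕ) (p : L[X]) (hp : p.natDegree ≤ N) :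
    aeval y⁻¹ (reflect N p) * y ^ N = aeval y p := by
  let _ := invertibleOfNonzero hy
  have := eval₂_reflect_mul_pow (algebraMap L F) y N p hp
  rwa [invOf_eq_inv] at this

/-- linear independence of `ȳ^(-a) θ̄_i` from that of `ȳ^a θ̄_i` -/
theorem linearIndependent_inv_pow {ybar : Fk} (hy : ybar ≠ 0) {θbar : Fin n → Fk}
    (h : LinearIndependent k (fun m : ℕ × Fin n => ybar ^ m.1 * θbar m.2)) :
    LinearIndependent k (fun m : ℕ × Fin n => ybar⁻¹ ^ m.1 * θbar m.2) := by
  classical
  rw [linearIndependent_iff]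
  intro l hl
  set e : ℕ := l.support.sup Prod.fst with he
  let φ : ℕ × Fin n → ℕ × Fin n := fun m => (e - m.1, m.2)
  have hle : ∀ m ∈ l.support, m.1 ≤ e := fun m hm => Finset.le_sup (f := Prod.fst) hm
  have hinj : Set.InjOn φ (l.support : Set (ℕ × Fin n)) := by
    intro m hm m' hm' hmm
    simp only [φ, Prod.mk.injEq] at hmm
    have h1 := hle m hm
    have h2 := hle m' hm'
    exact Prod.ext (by omega) hmm.2
  have h1 : Finsupp.linearCombination k (fun m : ℕ × Fin n => ybar ^ m.1 * θbar m.2)
      (Finsupp.mapDomain φ l) = 0 := by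
    rw [Finsupp.linearCombination_mapDomain, Finsupp.linearCombination_apply, Finsupp.sum]
    rw [Finsupp.linearCombination_apply, Finsupp.sum] at hl
    have h2 : ∀ m ∈ l.support, l m • ((fun m : ℕ × Fin n => ybar ^ m.1 * θbar m.2) ∘ φ) m
        = ybar ^ e * (l m • (ybar⁻¹ ^ m.1 * θbar m.2)) := by
      intro m hm
      have hm1 := hle m hm
      simp only [Function.comp_apply, φ]
      have : ybar ^ (e - m.1) = ybar ^ e * ybar⁻¹ ^ m.1 := by
        rw [inv_pow, ← div_eq_mul_inv, pow_sub₀ _ hy hm1, div_eq_mul_inv]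
      rw [this, mul_smul_comm, mul_assoc]
    rw [Finset.sum_congr rfl h2, ← Finset.mul_sum, hl, mul_zero]
  have h2 := linearIndependent_iff.1 h _ h1
  have h3 : Finsupp.mapDomain φ l = Finsupp.mapDomain φ 0 := by rw [h2, Finsupp.mapDomain_zero]
  exact Finsupp.mapDomain_injOn _ hinj (by simp) (by simp) h3

/-- a frame for `y` is a frame for `y⁻¹` -/
theorem IsFrameFamily.inv (h : IsFrameFamily G y θ) : IsFrameFamily G y⁻¹ θ where
  n_pos := h.n_pos
  y_mem := G.inv_mem_of_redF_ne_zero h.redF_y_ne_zero
  θ_mem := h.θ_mem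
  exists_repr := by
    classical
    intro f
    obtain ⟨q, p, hq, hqp⟩ := h.exists_repr f
    have hy := h.y_ne_zero
    set N : ℕ := max q.natDegree (Finset.univ.sup fun i => (p i).natDegree) with hN
    have hqN : q.natDegree ≤ N := le_max_left _ _
    have hpN : ∀ i, (p i).natDegree ≤ N := fun i =>
      le_trans (Finset.le_sup (f := fun i => (p i).natDegree) (Finset.mem_univ i))
        (le_max_right _ _)
    refine ⟨reflect N q, fun i => reflect N (p i), by simpa using hq, ?_⟩
    have hyN : y ^ N ≠ 0 := pow_ne_zero _ hy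
    apply mul_right_cancel₀ hyN
    have e1 : f * aeval y⁻¹ (reflect N q) * y ^ N = f * aeval y q := by
      have := aeval_inv_reflect_mul_pow hy N q hqN
      rw [mul_assoc, this]
    have e2 : ∀ i, aeval y⁻¹ (reflect N (p i)) * θ i * y ^ N = aeval y (p i) * θ i := by
      intro i
      have := aeval_inv_reflect_mul_pow hy N (p i) (hpN i)
      rw [mul_right_comm, this]
    rw [e1, hqp, Finset.sum_mul]
    exact Finset.sum_congr rfl fun i _ => (e2 i).symm
  red_indep := by
    have := linearIndependent_inv_pow (ybar := G.redF y) (θbar := fun i => G.redF (θ i))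
      h.redF_y_ne_zero h.red_indep
    rw [G.redF_inv h.redF_y_ne_zero]
    exact this

end Fermat.Agent.S18lib.WFrame
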