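/-
S18lib / Weak / GenusLe  (helper2)

**Weak genus inequality** (package (W-c)): for a weak datum `G : GaussDatum A F Fk` (NO place map)
with a frame `(y, θ)`, char `L = 0`, both sides curves, and degree preservation
`deg (y)_∞ = deg (ȳ)_∞`:   `g(Fk) ≤ g(F)`.

Key lemma: `f ∈ O ∩ L(m (y)_∞) ⇒ f̄ ∈ L_k(m (ȳ)_∞)`:  `f` is integral over `L[y]` and `f / y^m` is
integral over `L[1/y]`; reduction preserves integrality (`Weak/IntegralRed`, for the frames
`(y, θ)` and `(y⁻¹, θ)`); integral elements are regular where the coordinate is.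
-/
import Fermat.Agent.S18lib.Weak.FrameInv
import Fermat.Agent.S18lib.Setup.DatumFibre
import Fermat.Agent.S18lib.Setup.CurveRR
import Fermat.Agent.ProgramR.FunctionField.Divisor
import Fermat.Agent.ProgramR.FunctionField.AlgClosed

set_option autoImplicit false

noncomputable section

namespace Fermat.Agent.S18lib

open AlgebraicCurve IsDedekindDomain IntermediateField
open Fermat.Agent.ProgramR

/-! ### the two directions of the dictionary `integral over K[z]` ↔ `regular where z is` -/

section Dictionary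

variable {K F : Type*} [Field K] [Field F] [Algebra K F]

/-- char 0: a function regular at all places where `z` is regular is integral over `K[z]` -/
theorem isIntegral_adjoin_of_forall_mem [CharZero K] (z : F) (hz : Transcendental K z)
    [FiniteDimensional K⟮z⟯ F] {f : F}
    (hf : ∀ P : Place K F, z ∈ P.toValuationSubring → f ∈ P.toValuationSubring) :
    IsIntegral (Algebra.adjoin K ({z} : Set F)) f := by
  have := FF.isDedekindDomain_intClosure z hz
  have := FF.isFractionRing_intClosure (K := K) z
  have key : f ∈ (algebraMap (integralClosure (Algebra.adjoin K ({z} : Set F)) F) F).range := by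
    refine HeightOneSpectrum.mem_integers_of_valuation_le_one F f fun v => ?_
    have hz' : z ∈ (Place.ofHeightOneSpectrum (K := K) v).toValuationSubring := by
      have := FF.algebraMap_mem_ofHeightOneSpectrum (K := K) (F := F) v (FF.genB K z)
      rwa [FF.algebraMap_genB] at this
    have := hf _ hz'
    rwa [Place.ofHeightOneSpectrum_toValuationSubring, Valuation.mem_valuationSubring_iff] at this
  obtain ⟨b, rfl⟩ := key
  exact b.2

/-- any characteristic: integral over `K[z]` ⇒ regular where `z` is regular -/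
theorem mem_of_isIntegral_adjoin (Q : Place K F) {z f : F} (hz : z ∈ Q.toValuationSubring)
    (hf : IsIntegral (Algebra.adjoin K ({z} : Set F)) f) : f ∈ Q.toValuationSubring :=
  FF.mem_of_isIntegral_of_le Q (fun s => FF.adjoin_le_of_mem z Q hz s) hf

end Dictionary

variable {L : Type*} [Field L] {A : ValuationSubring L}
variable {F : Type*} [Field F] [Algebra L F]
variable {Fk : Type*} [Field Fk] [Algebra (IsLocalRing.ResidueField A) Fk]

local notation "k" => IsLocalRing.ResidueField A

namespace GaussDatum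

variable (G : GaussDatum A F Fk) {y : F} {n : ℕ} {θ : Fin n → F}

/-- regular where `y` is ⇒ the reduction is regular where `ȳ` is -/
theorem redF_mem_of_forall_mem [CharZero L] (hfr : WFrame.IsFrameFamily G y θ)
    (hy : Transcendental L y) [FiniteDimensional L⟮y⟯ F] {f : F} (hfO : f ∈ G.O)
    (hf : ∀ P : Place L F, y ∈ P.toValuationSubring → f ∈ P.toValuationSubring)
    (Q : Place k Fk) (hQ : G.redF y ∈ Q.toValuationSubring) :
    G.redF f ∈ Q.toValuationSubring :=
  mem_of_isIntegral_adjoin Q hQ
    (hfr.isIntegral_redF hfO (isIntegral_adjoin_of_forall_mem y hy hf))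

/-- **key lemma**: reduction maps `O ∩ L(m (y)_∞)` into `L_k(m (ȳ)_∞)` -/
theorem redF_mem_riemannRochSpace_polesOf [CharZero L] [HasPrincipalDivisors L F]
    [HasPrincipalDivisors k Fk] (hfr : WFrame.IsFrameFamily G y θ)
    (hy : Transcendental L y) [FiniteDimensional L⟮y⟯ F] (m : ℕ) {f : F} (hfO : f ∈ G.O)
    (hf : f ∈ riemannRochSpace ((m : ℤ) • polesOf (K := L) y)) :
    G.redF f ∈ riemannRochSpace ((m : ℤ) • polesOf (K := k) (G.redF y)) := by
  by_cases hf0 : G.redF f = 0
  · rw [hf0]; exact Submodule.zero_mem _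
  have hfne : f ≠ 0 := by
    rintro rfl
    exact hf0 G.redF_zero
  have hy0 : y ≠ 0 := hfr.y_ne_zero
  have hyb0 : G.redF y ≠ 0 := hfr.redF_y_ne_zero
  rw [mem_riemannRochSpace_iff] at hf
  have hford : ∀ P : Place L F, -((m : ℤ) * max (-P.ord y) 0) ≤ P.ord f := by
    intro P
    rcases hf P with h | h
    · exact absurd h hfne
    · rwa [Finsupp.smul_apply, polesOf_apply, smul_eq_mul] at h
  -- finite chart
  have h1 : ∀ P : Place L F, y ∈ P.toValuationSubring → f ∈ P.toValuationSubring := by
    intro P hP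
    rw [FF.mem_iff_ord_nonneg] at hP ⊢
    have := hford P
    rw [max_eq_right (by linarith)] at this
    linarith
  -- chart at infinity
  have hyinv : Transcendental L y⁻¹ := FF.transcendental_inv hy
  have : FiniteDimensional L⟮y⁻¹⟯ F := by rw [FF.adjoin_inv_eq (K := L) y]; infer_instance
  have hpow0 : (y⁻¹) ^ m ≠ 0 := pow_ne_zero _ (inv_ne_zero hy0)
  have h2 : ∀ P : Place L F, y⁻¹ ∈ P.toValuationSubring →
      f * (y⁻¹) ^ m ∈ P.toValuationSubring := by
    intro P hP
    rw [FF.mem_iff_ord_nonneg] at hP ⊢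
    rw [P.ord_inv] at hP
    rw [P.ord_mul hfne hpow0, ← zpow_natCast, P.ord_zpow, P.ord_inv]
    have := hford P
    rw [max_eq_left (by linarith)] at this
    nlinarith
  have hyinvO : y⁻¹ ∈ G.O := G.inv_mem_of_redF_ne_zero hyb0
  have hf'O : f * (y⁻¹) ^ m ∈ G.O := G.O.mul_mem _ _ hfO (G.O.pow_mem hyinvO m)
  have hred' : G.redF (f * (y⁻¹) ^ m) = G.redF f * ((G.redF y)⁻¹) ^ m := by
    rw [G.redF_mul hfO (G.O.pow_mem hyinvO m), G.redF_pow hyinvO, G.redF_inv hyb0]
  rw [mem_riemannRochSpace_iff]
  intro Q
  right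
  rw [Finsupp.smul_apply, polesOf_apply, smul_eq_mul]
  rcases le_or_gt 0 (Q.ord (G.redF y)) with hQ | hQ
  · -- `ȳ` regular at `Q`
    have hmem := G.redF_mem_of_forall_mem hfr hy hfO h1 Q ((FF.mem_iff_ord_nonneg Q _).2 hQ)
    rw [FF.mem_iff_ord_nonneg] at hmem
    rw [max_eq_right (by linarith)]
    linarith
  · -- pole of `ȳ`
    have hQ' : (G.redF y)⁻¹ ∈ Q.toValuationSubring := by
      rw [FF.mem_iff_ord_nonneg, Q.ord_inv]; linarith
    have hQ'' : G.redF y⁻¹ ∈ Q.toValuationSubring := by
      rw [G.redF_inv hyb0]; exact hQ'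
    have hmem := G.redF_mem_of_forall_mem hfr.inv hyinv hf'O h2 Q hQ''
    rw [hred', FF.mem_iff_ord_nonneg,
      Q.ord_mul hf0 (pow_ne_zero _ (inv_ne_zero hyb0)), ← zpow_natCast, Q.ord_zpow,
      Q.ord_inv] at hmem
    rw [max_eq_left (by linarith)]
    nlinarith

/-- semicontinuity without a place map: `l(m (y)_∞) ≤ l_k(m (ȳ)_∞)` -/
theorem finrank_le_polesOf [CharZero L] [HasPrincipalDivisors L F]
    [HasPrincipalDivisors k Fk] (hfr : WFrame.IsFrameFamily G y θ)
    (hy : Transcendental L y) [FiniteDimensional L⟮y⟯ F] (m : ℕ)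
    [FiniteDimensional L (riemannRochSpace ((m : ℤ) • polesOf (K := L) y))]
    [FiniteDimensional k (riemannRochSpace ((m : ℤ) • polesOf (K := k) (G.redF y)))] :
    Module.finrank L (riemannRochSpace ((m : ℤ) • polesOf (K := L) y)) ≤
      Module.finrank k (riemannRochSpace ((m : ℤ) • polesOf (K := k) (G.redF y))) := by
  obtain ⟨b, hbW, hbO, hbli⟩ := hfr.hasOrthonormalBases
    (riemannRochSpace ((m : ℤ) • polesOf (K := L) y)) inferInstance
  set V := riemannRochSpace ((m : ℤ) • polesOf (K := k) (G.redF y)) with hV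
  set b' : Fin (Module.finrank L (riemannRochSpace ((m : ℤ) • polesOf (K := L) y))) → V :=
    fun i => ⟨G.redF (b i), G.redF_mem_riemannRochSpace_polesOf hfr hy m (hbO i) (hbW i)⟩ with hb'
  have hli : LinearIndependent k b' := by
    apply LinearIndependent.of_comp V.subtype
    exact hbli
  have := hli.fintype_card_le_finrank
  simpa using this

/-- a transcendental function has a pole -/
theorem degree_polesOf_pos {K F : Type*} [Field K] [Field F] [Algebra K F]
    [HasPrincipalDivisors K F] {g : ℕ} (hF : IsCurveOfGenus K F g) {y : F}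
    (hy : Transcendental K y) : 0 < Divisor.degree (polesOf (K := K) y) := by
  classical
  have hnn := polesOf_nonneg (K := K) y
  have hnni : ∀ P, 0 ≤ polesOf (K := K) y P := fun P => Finsupp.le_def.1 hnn P
  have hsum : Divisor.degree (polesOf (K := K) y)
      = ∑ P ∈ (polesOf (K := K) y).support, polesOf (K := K) y P * (P.deg : ℤ) := by
    simp [Divisor.degree, Finsupp.liftAddHom_apply, Finsupp.sum]
  have hge : 0 ≤ Divisor.degree (polesOf (K := K) y) := by
    rw [hsum]
    exact Finset.sum_nonneg fun P _ => mul_nonneg (hnni P) (by positivity)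
  rcases hge.lt_or_eq with h | h
  · exact h
  exfalso
  have h0 := eq_zero_of_nonneg_of_degree_eq_zero
    (fun P => by rw [hF.deg_eq_one P]; exact Nat.one_pos) hnn h.symm
  -- `y` has no poles, so it is constant
  have hmem : y ∈ riemannRochSpace (0 : Divisor K F) := by
    rw [mem_riemannRochSpace_iff]
    intro P
    right
    have := congrArg (fun E : Divisor K F => E P) h0
    simp only [polesOf_apply, Finsupp.zero_apply] at this
    have h1 : -P.ord y ≤ 0 := by
      rw [← this]; exact le_max_left _ _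
    simp only [Finsupp.zero_apply, neg_zero]
    linarith
  rw [hF.riemannRochSpace_zero] at hmem
  obtain ⟨c, rfl⟩ := (Algebra.mem_bot).1 hmem
  exact hy (isAlgebraic_algebraMap c)

/-- **weak genus inequality** (no place map): `g(Fk) ≤ g(F)` -/
theorem genus_le_of_frame [CharZero L] [HasPrincipalDivisors L F] [HasPrincipalDivisors k Fk]
    (hfr : WFrame.IsFrameFamily G y θ) (hy : Transcendental L y) [FiniteDimensional L⟮y⟯ F]
    {g gk : ℕ} (hF : IsCurveOfGenus L F g) (hFk : IsCurveOfGenus k Fk gk)
    (hdeg : Divisor.degree (polesOf (K := L) y) = Divisor.degree (polesOf (K := k) (G.redF y))) :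
    gk ≤ g := by
  have hδ := degree_polesOf_pos hF hy
  set δ : ℤ := Divisor.degree (polesOf (K := L) y) with hδdef
  set m : ℕ := 2 * g + 2 * gk + 1 with hm
  have hdegE : Divisor.degree ((m : ℤ) • polesOf (K := L) y) = m * δ := by
    rw [map_zsmul, smul_eq_mul]
  have hdegEk : Divisor.degree ((m : ℤ) • polesOf (K := k) (G.redF y)) = m * δ := by
    rw [map_zsmul, smul_eq_mul, ← hdeg]
  have hbig : (2 * g + 2 * gk + 1 : ℤ) ≤ m * δ := by
    have h1 : (m : ℤ) = 2 * g + 2 * gk + 1 := by rw [hm]; push_cast; ring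
    have h2 : (0 : ℤ) ≤ m := by positivity
    nlinarith
  have := hF.finiteDimensional ((m : ℤ) • polesOf (K := L) y)
  have := hFk.finiteDimensional ((m : ℤ) • polesOf (K := k) (G.redF y))
  have h1 := hF.riemann_eq ((m : ℤ) • polesOf (K := L) y) (by rw [hdegE]; linarith)
  have h2 := hFk.riemann_eq ((m : ℤ) • polesOf (K := k) (G.redF y)) (by rw [hdegEk]; linarith)
  have h3 := G.finrank_le_polesOf hfr hy m
  rw [hdegE] at h1
  rw [hdegEk] at h2
  have h4 : (Module.finrank L (riemannRochSpace ((m : ℤ) • polesOf (K := L) y)) : ℤ) ≤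
      (Module.finrank k (riemannRochSpace ((m : ℤ) • polesOf (K := k) (G.redF y))) : ℤ) := by
    exact_mod_cast h3
  rw [h1, h2] at h4
  omega

end GaussDatum

end Fermat.Agent.S18lib
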