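/-
S18lib / Weak / GenusEq  (helper2)

**Equality case of the weak genus inequality** (package (W-c), second half; no place map).
If `g(Fk) = g(F)` then reduction `O ∩ L(m (y)_∞) → L_k(m (ȳ)_∞)` is ONTO for `m (y)_∞` of degree
`> 2g - 2`; consequently every element of `Fk` integral over `k[ȳ]` is the reduction of an element
of `O` integral over `L[y]`:   `B_k = red (B_A)` on the whole finite `y`-chart.
-/
import Fermat.Agent.S18lib.Weak.GenusLe

set_option autoImplicit false

noncomputable section

namespace Fermat.Agent.S18lib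

open AlgebraicCurve IsDedekindDomain IntermediateField
open Fermat.Agent.ProgramR

variable {L : Type*} [Field L] {A : ValuationSubring L}
variable {F : Type*} [Field F] [Algebra L F]
variable {Fk : Type*} [Field Fk] [Algebra (IsLocalRing.ResidueField A) Fk]

local notation "k" => IsLocalRing.ResidueField A

namespace GaussDatum

variable (G : GaussDatum A F Fk) {y : F} {n : ℕ} {θ : Fin n → F}

/-- **lifting lemma without place map**: equal genus ⇒ `red : O ∩ L(m (y)_∞) → L_k(m (ȳ)_∞)` is
onto in degree `> 2g - 2` -/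
theorem exists_lift_polesOf [CharZero L] [HasPrincipalDivisors L F] [HasPrincipalDivisors k Fk]
    (hfr : WFrame.IsFrameFamily G y θ) (hy : Transcendental L y) [FiniteDimensional L⟮y⟯ F]
    {g : ℕ} (hF : IsCurveOfGenus L F g) (hFk : IsCurveOfGenus k Fk g)
    (hdeg : Divisor.degree (polesOf (K := L) y) = Divisor.degree (polesOf (K := k) (G.redF y)))
    (m : ℕ) (hm : 2 * (g : ℤ) - 2 < m * Divisor.degree (polesOf (K := L) y))
    {φ : Fk} (hφ : φ ∈ riemannRochSpace ((m : ℤ) • polesOf (K := k) (G.redF y))) :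
    ∃ f : F, f ∈ G.O ∧ f ∈ riemannRochSpace ((m : ℤ) • polesOf (K := L) y) ∧ G.redF f = φ := by
  classical
  have := hF.finiteDimensional ((m : ℤ) • polesOf (K := L) y)
  have := hFk.finiteDimensional ((m : ℤ) • polesOf (K := k) (G.redF y))
  have hdegE : Divisor.degree ((m : ℤ) • polesOf (K := L) y)
      = m * Divisor.degree (polesOf (K := L) y) := by
    rw [map_zsmul, smul_eq_mul]
  have hdegEk : Divisor.degree ((m : ℤ) • polesOf (K := k) (G.redF y))
      = m * Divisor.degree (polesOf (K := L) y) := by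
    rw [map_zsmul, smul_eq_mul, ← hdeg]
  obtain ⟨b, hbW, hbO, hbli⟩ := hfr.hasOrthonormalBases
    (riemannRochSpace ((m : ℤ) • polesOf (K := L) y)) inferInstance
  set V := riemannRochSpace ((m : ℤ) • polesOf (K := k) (G.redF y)) with hV
  set b' : Fin (Module.finrank L (riemannRochSpace ((m : ℤ) • polesOf (K := L) y))) → V :=
    fun i => ⟨G.redF (b i), G.redF_mem_riemannRochSpace_polesOf hfr hy m (hbO i) (hbW i)⟩ with hb'
  have hli : LinearIndependent k b' := by
    apply LinearIndependent.of_comp V.subtype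
    exact hbli
  have h1 := hF.riemann_eq ((m : ℤ) • polesOf (K := L) y) (by rw [hdegE]; exact hm)
  have h2 := hFk.riemann_eq ((m : ℤ) • polesOf (K := k) (G.redF y)) (by rw [hdegEk]; exact hm)
  rw [hdegE] at h1
  rw [hdegEk] at h2
  have hcard : Fintype.card
      (Fin (Module.finrank L (riemannRochSpace ((m : ℤ) • polesOf (K := L) y)))) =
      Module.finrank k V := by
    rw [Fintype.card_fin]
    have : (Module.finrank L (riemannRochSpace ((m : ℤ) • polesOf (K := L) y)) : ℤ) =
        (Module.finrank k V : ℤ) := by rw [h1, h2]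
    exact_mod_cast this
  have hspan := hli.span_eq_top_of_card_eq_finrank' hcard
  have hmem : (⟨φ, hφ⟩ : V) ∈ Submodule.span k (Set.range b') := by
    rw [hspan]; exact Submodule.mem_top
  obtain ⟨c, hc⟩ := (Submodule.mem_span_range_iff_exists_fun _).mp hmem
  choose a ha using fun i => IsLocalRing.residue_surjective (R := A) (c i)
  have hborth : G.IsOrthonormal b := ⟨hbO, hbli⟩
  refine ⟨∑ i, algebraMap L F (a i : L) * b i, hborth.sum_mem a, ?_, ?_⟩
  · refine Submodule.sum_mem _ fun i _ => ?_
    rw [← Algebra.smul_def]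
    exact Submodule.smul_mem _ _ (hbW i)
  · rw [hborth.redF_sum a]
    have h3 := congrArg Subtype.val hc
    simp only [Submodule.coe_sum, Submodule.coe_smul, hb'] at h3
    rw [← h3]
    exact Finset.sum_congr rfl fun i _ => by rw [ha i]

/-- an element regular wherever `z` is regular lies in `L(m (z)_∞)` for `m` large -/
theorem mem_riemannRochSpace_polesOf_of_forall_mem {K E : Type*} [Field K] [Field E] [Algebra K E]
    [HasPrincipalDivisors K E] {z φ : E}
    (hφ : ∀ Q : Place K E, z ∈ Q.toValuationSubring → φ ∈ Q.toValuationSubring) :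
    ∃ m₀ : ℕ, ∀ m : ℕ, m₀ ≤ m → φ ∈ riemannRochSpace ((m : ℤ) • polesOf (K := K) z) := by
  classical
  -- `m₀` = total pole order of `φ`
  set D := polesOf (K := K) φ with hD
  have hDnn : ∀ Q, 0 ≤ D Q := fun Q => Finsupp.le_def.1 (polesOf_nonneg (K := K) φ) Q
  refine ⟨(∑ Q ∈ D.support, D Q).toNat, fun m hm => ?_⟩
  rw [mem_riemannRochSpace_iff]
  intro Q
  right
  rw [Finsupp.smul_apply, polesOf_apply, smul_eq_mul]
  rcases le_or_gt 0 (Q.ord z) with hQ | hQ
  · have := hφ Q ((FF.mem_iff_ord_nonneg Q z).2 hQ)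
    rw [FF.mem_iff_ord_nonneg] at this
    rw [max_eq_right (by linarith)]
    linarith
  · -- a pole of `z`: `-ord φ ≤ D Q ≤ total ≤ m ≤ m * (-ord z)`
    rw [max_eq_left (by linarith)]
    have h1 : -Q.ord φ ≤ D Q := by
      rw [hD, polesOf_apply]; exact le_max_left _ _
    have h2 : D Q ≤ ∑ Q ∈ D.support, D Q := by
      by_cases hQs : Q ∈ D.support
      · exact Finset.single_le_sum (fun Q _ => hDnn Q) hQs
      · rw [Finsupp.notMem_support_iff.1 hQs]
        exact Finset.sum_nonneg fun Q _ => hDnn Q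
    have h3 : (∑ Q ∈ D.support, D Q) ≤ m := by
      have := Int.toNat_le.1 hm
      exact this
    have h4 : (1 : ℤ) ≤ -Q.ord z := by linarith
    have h5 : (0 : ℤ) ≤ m := by positivity
    nlinarith

/-- **equality case**: if `g(Fk) = g(F)`, every element of `Fk` integral over `k[ȳ]` is the
reduction of an element of `O` integral over `L[y]` -/
theorem exists_lift_of_isIntegral [CharZero L] [HasPrincipalDivisors L F]
    [HasPrincipalDivisors k Fk]
    (hfr : WFrame.IsFrameFamily G y θ) (hy : Transcendental L y) [FiniteDimensional L⟮y⟯ F]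
    {g : ℕ} (hF : IsCurveOfGenus L F g) (hFk : IsCurveOfGenus k Fk g)
    (hdeg : Divisor.degree (polesOf (K := L) y) = Divisor.degree (polesOf (K := k) (G.redF y)))
    {φ : Fk} (hφ : IsIntegral (Algebra.adjoin k ({G.redF y} : Set Fk)) φ) :
    ∃ f : F, f ∈ G.O ∧ IsIntegral (Algebra.adjoin L ({y} : Set F)) f ∧ G.redF f = φ := by
  have hδ := degree_polesOf_pos hF hy
  obtain ⟨m₀, hm₀⟩ := mem_riemannRochSpace_polesOf_of_forall_mem (K := k) (z := G.redF y) (φ := φ)
    (fun Q hQ => mem_of_isIntegral_adjoin Q hQ hφ)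
  set m : ℕ := m₀ + 2 * g with hm
  have hbig : 2 * (g : ℤ) - 2 < m * Divisor.degree (polesOf (K := L) y) := by
    have h1 : (m : ℤ) = m₀ + 2 * g := by rw [hm]; push_cast; ring
    have h2 : (0 : ℤ) ≤ m₀ := by positivity
    nlinarith
  obtain ⟨f, hfO, hfW, hfr'⟩ := G.exists_lift_polesOf hfr hy hF hFk hdeg m hbig
    (hm₀ m (by rw [hm]; omega))
  refine ⟨f, hfO, ?_, hfr'⟩
  apply isIntegral_adjoin_of_forall_mem y hy
  intro P hP
  by_cases hf0 : f = 0
  · rw [hf0]; exact P.toValuationSubring.zero_mem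
  rw [mem_riemannRochSpace_iff] at hfW
  rcases hfW P with h | h
  · exact absurd h hf0
  · rw [FF.mem_iff_ord_nonneg] at hP ⊢
    rw [Finsupp.smul_apply, polesOf_apply, smul_eq_mul, max_eq_right (by linarith)] at h
    linarith

end GaussDatum

end Fermat.Agent.S18lib
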