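/-
S18lib / Weak / PolyAdapter  (helper2)

Adapters around the equality case `GaussDatum.exists_lift_of_isIntegral` of `Weak/GenusEq`:
* `polesOf_eq_poleDiv`, `zerosOf_eq_zeroDiv` : the zero / pole divisors of `Setup/DatumFibre`
  are those of `Tame/ZeroPole`;
* `degree_poleDiv_eq_finrank_adjoin`, `degree_polesOf_eq_finrank_adjoin` : instance-free
  `deg (x)_∞ = [F : K(x)]` (`K` algebraically closed, any characteristic, `F / K(x)` finite
  separable), from `RHCount.degree_poleDiv_eq_finrank` through the canonical charts;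
* `isIntegral_adjoin_iff_isIntegral_poly` : for a `K[X]`-algebra structure on `E` compatible with
  the `K`-algebra structure, integrality over `K[X]` is integrality over `K[x]`, `x` the image
  of `X`;
* `GaussDatum.exists_lift_of_isIntegral_poly`, `GaussDatum.exists_lift_of_chart`,
  `GaussDatum.exists_lift_of_chart_of_finrank` : the hypothesis `hS2` of the normality package
  `Norm/Normal`, `Norm/Tower` in its exact shape
  `∀ b' : Bk', ∃ β : F', β ∈ G'.O ∧ IsIntegral L[X] β ∧ G'.redF β = algebraMap Bk' Fk' b'`.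
-/
import Fermat.Agent.S18lib.Weak.GenusEq
import Fermat.Agent.S18lib.RRgen.Canonical
import Fermat.Agent.S18lib.RHCount.PoleDegree

set_option autoImplicit false
set_option linter.style.haveILetI false

noncomputable section

namespace Fermat.Agent.S18lib

open Polynomial AlgebraicCurve IntermediateField Module
open Fermat.Agent.ProgramR Fermat.Agent.ProgramR.RR

/-! ### the two families of zero / pole divisors -/

section Bridge

variable {K F : Type*} [Field K] [Field F] [Algebra K F] [HasPrincipalDivisors K F]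

theorem polesOf_eq_poleDiv (f : F) : polesOf (K := K) f = Tame.poleDiv (K := K) f :=
  Finsupp.ext fun v => by rw [polesOf_apply, Tame.poleDiv_apply]

theorem zerosOf_eq_zeroDiv (f : F) : zerosOf (K := K) f = Tame.zeroDiv (K := K) f :=
  Finsupp.ext fun v => by rw [zerosOf_apply, Tame.zeroDiv_apply]

end Bridge

/-! ### `deg (x)_∞ = [F : K(x)]`, instance-free -/

section Degree

open RRgen.Canonical

attribute [local instance] isScalarTower_const_poly isScalarTower_ainf_ratFunc
  isScalarTower_const_ainf algebraBInf isScalarTower_const_BFin isScalarTower_const_BInf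
  isTorsionFree_BFin isTorsionFree_BInf isFractionRing_BFin isDedekindDomain_BFin finite_BFin
  isFractionRing_BInf isDedekindDomain_BInf finite_BInf

/-- **`deg (x)_∞ = [F : K(x)]`**, instance-free (`K` algebraically closed, any characteristic) -/
theorem degree_poleDiv_eq_finrank_adjoin (K : Type*) [Field K] [IsAlgClosed K] {F : Type*}
    [Field F] [Algebra K F] [HasPrincipalDivisors K F] {x : F} (hx : Transcendental K x)
    [FiniteDimensional K⟮x⟯ F] [Algebra.IsSeparable K⟮x⟯ F] :
    Divisor.degree (Tame.poleDiv (K := K) x) = (finrank K⟮x⟯ F : ℤ) := by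
  letI := polyAlgebra K x
  letI := ratFuncAlgebra K hx
  haveI := isScalarTower_poly_ratFunc K hx
  haveI := isScalarTower_const_ratFunc K hx
  haveI := finiteDimensional_ratFunc K hx
  haveI := isSeparable_ratFunc K hx
  have h := RHCount.degree_poleDiv_eq_finrank K F (BInf K F)
  rw [algebraMap_ratFuncAlgebra_X K hx, finrank_ratFunc K hx] at h
  exact h

theorem degree_polesOf_eq_finrank_adjoin (K : Type*) [Field K] [IsAlgClosed K] {F : Type*}
    [Field F] [Algebra K F] [HasPrincipalDivisors K F] {x : F} (hx : Transcendental K x)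
    [FiniteDimensional K⟮x⟯ F] [Algebra.IsSeparable K⟮x⟯ F] :
    Divisor.degree (polesOf (K := K) x) = (finrank K⟮x⟯ F : ℤ) := by
  rw [polesOf_eq_poleDiv]; exact degree_poleDiv_eq_finrank_adjoin K hx

end Degree

/-! ### integrality over `K[X]` and over `K[x]` -/

section Integral

variable {K E : Type*} [Field K] [CommRing E] [Algebra K E] [Algebra K[X] E]
  [IsScalarTower K K[X] E]

/-- a `K[X]`-algebra structure compatible with the `K`-algebra structure is evaluation at the
image of `X` -/
theorem algebraMap_poly_eq_aeval (p : K[X]) :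
    algebraMap K[X] E p = aeval (algebraMap K[X] E X) p := by
  have h := aeval_algHom_apply (IsScalarTower.toAlgHom K K[X] E) (X : K[X]) p
  rw [aeval_X_left_apply] at h
  exact h.symm

/-- integrality over `K[X]` (for a compatible `K[X]`-algebra structure `X ↦ x`) is integrality
over the subalgebra `K[x]` -/
theorem isIntegral_adjoin_iff_isIntegral_poly {x : E} (hx : algebraMap K[X] E X = x) (f : E) :
    IsIntegral (Algebra.adjoin K ({x} : Set E)) f ↔ IsIntegral K[X] f := by
  set S : Subalgebra K E := Algebra.adjoin K ({x} : Set E) with hS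
  have hxS : x ∈ S := Algebra.subset_adjoin rfl
  let φ : K[X] →ₐ[K] S := aeval (⟨x, hxS⟩ : S)
  have hφ : ∀ p : K[X], ((φ p : S) : E) = algebraMap K[X] E p := by
    intro p
    rw [algebraMap_poly_eq_aeval, hx]
    exact aeval_subalgebra_coe p S ⟨x, hxS⟩
  letI : Algebra K[X] S := φ.toRingHom.toAlgebra
  haveI : IsScalarTower K[X] S E := IsScalarTower.of_algebraMap_eq fun p => (hφ p).symm
  have hsurj : Function.Surjective (algebraMap K[X] S) := by
    rintro ⟨s, hs⟩
    have hs' : s ∈ (aeval x : K[X] →ₐ[K] E).range := by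
      rw [← Algebra.adjoin_singleton_eq_range_aeval]; exact hs
    obtain ⟨p, hp⟩ := hs'
    refine ⟨p, Subtype.ext ?_⟩
    show ((φ p : S) : E) = s
    rw [hφ, algebraMap_poly_eq_aeval, hx]; exact hp
  constructor
  · intro h
    haveI : Algebra.IsIntegral K[X] S := Algebra.isIntegral_of_surjective hsurj
    exact isIntegral_trans f h
  · intro h
    exact h.tower_top

end Integral

/-! ### the hypothesis `hS2` of the normality package -/

variable {L : Type*} [Field L] {A : ValuationSubring L}
variable {F : Type*} [Field F] [Algebra L F]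
variable {Fk : Type*} [Field Fk] [Algebra (IsLocalRing.ResidueField A) Fk]

local notation "k" => IsLocalRing.ResidueField A

namespace GaussDatum

variable [Algebra L[X] F] [IsScalarTower L L[X] F]
  [Algebra (IsLocalRing.ResidueField A)[X] Fk]
  [IsScalarTower (IsLocalRing.ResidueField A) (IsLocalRing.ResidueField A)[X] Fk]
variable (G : GaussDatum A F Fk) {y : F} {n : ℕ} {θ : Fin n → F}

/-- **equality case, polynomial form**: for `L[X]`- and `k[X]`-structures `X ↦ y`, `X ↦ ȳ`, every
element of `Fk` integral over `k[X]` is the reduction of an element of `O` integral over `L[X]` -/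
theorem exists_lift_of_isIntegral_poly [CharZero L] [HasPrincipalDivisors L F]
    [HasPrincipalDivisors k Fk]
    (hyX : algebraMap L[X] F X = y) (hzX : algebraMap k[X] Fk X = G.redF y)
    (hfr : WFrame.IsFrameFamily G y θ) (hy : Transcendental L y) [FiniteDimensional L⟮y⟯ F]
    {g : ℕ} (hF : IsCurveOfGenus L F g) (hFk : IsCurveOfGenus k Fk g)
    (hdeg : Divisor.degree (polesOf (K := L) y) = Divisor.degree (polesOf (K := k) (G.redF y)))
    {φ : Fk} (hφ : IsIntegral k[X] φ) :
    ∃ f : F, f ∈ G.O ∧ IsIntegral L[X] f ∧ G.redF f = φ := by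
  have hφ' : IsIntegral (Algebra.adjoin k ({G.redF y} : Set Fk)) φ :=
    (isIntegral_adjoin_iff_isIntegral_poly hzX φ).2 hφ
  obtain ⟨f, hfO, hfI, hfr'⟩ := G.exists_lift_of_isIntegral hfr hy hF hFk hdeg hφ'
  exact ⟨f, hfO, (isIntegral_adjoin_iff_isIntegral_poly hyX f).1 hfI, hfr'⟩

/-- **`hS2` of `Norm/Normal`, `Norm/Tower`**: every element of a chart `Bk` integral over `k[X]` is
the reduction of an element of `O` integral over `L[X]` -/
theorem exists_lift_of_chart [CharZero L] [HasPrincipalDivisors L F]
    [HasPrincipalDivisors k Fk]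
    (hyX : algebraMap L[X] F X = y) (hzX : algebraMap k[X] Fk X = G.redF y)
    (hfr : WFrame.IsFrameFamily G y θ) (hy : Transcendental L y) [FiniteDimensional L⟮y⟯ F]
    {g : ℕ} (hF : IsCurveOfGenus L F g) (hFk : IsCurveOfGenus k Fk g)
    (hdeg : Divisor.degree (polesOf (K := L) y) = Divisor.degree (polesOf (K := k) (G.redF y)))
    {Bk : Type*} [CommRing Bk] [Algebra (IsLocalRing.ResidueField A)[X] Bk] [Algebra Bk Fk]
    [IsScalarTower (IsLocalRing.ResidueField A)[X] Bk Fk]
    [Algebra.IsIntegral (IsLocalRing.ResidueField A)[X] Bk] (b : Bk) :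
    ∃ β : F, β ∈ G.O ∧ IsIntegral L[X] β ∧ G.redF β = algebraMap Bk Fk b :=
  G.exists_lift_of_isIntegral_poly hyX hzX hfr hy hF hFk hdeg
    ((Algebra.IsIntegral.isIntegral (R := (IsLocalRing.ResidueField A)[X]) b).algebraMap)

/-- **`hS2`, degree hypothesis in `finrank` form** (`L`, `k` algebraically closed) -/
theorem exists_lift_of_chart_of_finrank [CharZero L] [IsAlgClosed L]
    [IsAlgClosed (IsLocalRing.ResidueField A)] [HasPrincipalDivisors L F]
    [HasPrincipalDivisors k Fk]
    (hyX : algebraMap L[X] F X = y) (hzX : algebraMap k[X] Fk X = G.redF y)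
    (hfr : WFrame.IsFrameFamily G y θ) (hy : Transcendental L y) [FiniteDimensional L⟮y⟯ F]
    (hyk : Transcendental k (G.redF y)) [FiniteDimensional k⟮G.redF y⟯ Fk]
    [Algebra.IsSeparable k⟮G.redF y⟯ Fk]
    {g : ℕ} (hF : IsCurveOfGenus L F g) (hFk : IsCurveOfGenus k Fk g)
    (hdeg : finrank L⟮y⟯ F = finrank k⟮G.redF y⟯ Fk)
    {Bk : Type*} [CommRing Bk] [Algebra (IsLocalRing.ResidueField A)[X] Bk] [Algebra Bk Fk]
    [IsScalarTower (IsLocalRing.ResidueField A)[X] Bk Fk]
    [Algebra.IsIntegral (IsLocalRing.ResidueField A)[X] Bk] (b : Bk) :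
    ∃ β : F, β ∈ G.O ∧ IsIntegral L[X] β ∧ G.redF β = algebraMap Bk Fk b := by
  have : Algebra.IsSeparable L⟮y⟯ F := Algebra.IsAlgebraic.isSeparable_of_perfectField
  refine G.exists_lift_of_chart hyX hzX hfr hy hF hFk ?_ b
  rw [degree_polesOf_eq_finrank_adjoin L hy, degree_polesOf_eq_finrank_adjoin k hyk, hdeg]

end GaussDatum

end Fermat.Agent.S18lib
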