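/-
S18lib / Weak / Level  (helper2)

The concrete (W-c) at an arbitrary level `M` prime to `ℓ`, for the unconditional Gauss datum
`V.gaussDatum M A hℓM hA` with its frame `(j, θ)`:
* `V.gaussDatum_redF_jF`   : `red (j) = j̄ = Gink.jK A M`;
* `V.degree_polesOf_jF_eq` : `deg (j)_∞ = deg (j̄)_∞` (both are `ψ(M)`);
* `V.genus_le_level`       : `g(FRes A M) ≤ g(FBar M)`;
* `V.hS2_level`            : if the two genera agree, every element of a chart `Bk` of `FRes A M`
  integral over `k[X]` (`X ↦ j̄`) is the reduction of an element of `O` integral over `Q̄[X]`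
  (`X ↦ j`): the hypothesis `hS2` of `Norm/Tower`, `Norm/Normal`.
-/
import Fermat.Agent.S18lib.Weak.PolyAdapter
import Fermat.Agent.S18lib.Gin0.Genus
import Fermat.Agent.S18lib.Gink.Sep
import Fermat.Agent.S18lib.Gink.Degree
import Fermat.Agent.S18lib.V.GaussU.Frame

set_option autoImplicit false
set_option linter.unusedSectionVars false

noncomputable section

namespace Fermat.Agent.S18lib.V

open AlgebraicCurve ModularCurve IntermediateField Polynomial Module
open Fermat.Agent.ProgramR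

variable (M : ℕ) [NeZero M] {ℓ : ℕ} [Fact ℓ.Prime]
variable (A : ValuationSubring (AlgebraicClosure ℚ))

local notation "Qb" => AlgebraicClosure ℚ

/-- `j ∈ O` -/
theorem jF_mem_gaussDatum_O (hℓM : ¬ ℓ ∣ M) (hA : A.LiesOverPrime ℓ) :
    Gin0.jF M ∈ (gaussDatum M A hℓM hA).O :=
  jBar_mem_gaussDatum_O M A hℓM hA

/-- `red j = j̄` -/
theorem gaussDatum_redF_jF (hℓM : ¬ ℓ ∣ M) (hA : A.LiesOverPrime ℓ) :
    (gaussDatum M A hℓM hA).redF (Gin0.jF M) = Gink.jK A M := by
  have h1 : (gaussDatum M A hℓM hA).redF (Gin0.jF M) = jRes M A :=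
    gaussDatum_redF_jBar M A hℓM hA
  rw [h1]
  apply Subtype.ext
  rw [coe_jRes, Gink.coe_jK]

/-- the frame `(j, θ)` of the unconditional Gauss datum, with `y = Gin0.jF M` -/
theorem gaussDatum_isFrameFamily_jF (hℓM : ¬ ℓ ∣ M) (hA : A.LiesOverPrime ℓ) :
    WFrame.IsFrameFamily (gaussDatum M A hℓM hA) (Gin0.jF M)
      (fun i => elemL (frameTheta M ℓ A hℓM i)) :=
  gaussDatum_isFrameFamily M A hℓM hA

/-- `[FBar M : Q̄(j)] = [FRes A M : k(j̄)]` -/
theorem finrank_jF_eq_finrank_redF (hℓM : ¬ ℓ ∣ M) (hA : A.LiesOverPrime ℓ) :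
    finrank Qb⟮Gin0.jF M⟯ (FBar M) =
      finrank (kRes A)⟮(gaussDatum M A hℓM hA).redF (Gin0.jF M)⟯ (FRes A M) := by
  rw [gaussDatum_redF_jF, Gin0.finrank_jF, Gink.finrank_jK A M hA hℓM]

/-- degree preservation: `deg (j)_∞ = deg (j̄)_∞` -/
theorem degree_polesOf_jF_eq (hℓM : ¬ ℓ ∣ M) (hA : A.LiesOverPrime ℓ)
    [HasPrincipalDivisors Qb (FBar M)] [HasPrincipalDivisors (kRes A) (FRes A M)] :
    Divisor.degree (polesOf (K := Qb) (Gin0.jF M)) =
      Divisor.degree (polesOf (K := kRes A) ((gaussDatum M A hℓM hA).redF (Gin0.jF M))) := by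
  have hx : Transcendental (kRes A) (Gink.jK A M) := Gink.transcendental_jK A M
  have : Algebra.IsSeparable (kRes A)⟮Gink.jK A M⟯ (FRes A M) := Gink.isSeparable_jK A M hA hℓM
  rw [gaussDatum_redF_jF, polesOf_eq_poleDiv, Gin0.degree_poleDiv_jF M,
    degree_polesOf_eq_finrank_adjoin (kRes A) hx, Gink.finrank_jK A M hA hℓM]

/-- **(W-c) at level `M`**: the genus of the reduction is at most the genus of `X₀(M)` -/
theorem genus_le_level (hℓM : ¬ ℓ ∣ M) (hA : A.LiesOverPrime ℓ) {g gk : ℕ}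
    (hF : IsCurveOfGenus Qb (FBar M) g) (hFk : IsCurveOfGenus (kRes A) (FRes A M) gk) :
    gk ≤ g := by
  have := hF.hasPrincipalDivisors
  have := hFk.hasPrincipalDivisors
  exact GaussDatum.genus_le_of_frame (gaussDatum M A hℓM hA)
    (gaussDatum_isFrameFamily_jF M A hℓM hA) (Gin0.transcendental_jF M) hF hFk
    (degree_polesOf_jF_eq M A hℓM hA)

/-- **`hS2` at level `M`** (equality case of (W-c)): if `FBar M` and `FRes A M` have the same
genus, every element of a chart `Bk` of `FRes A M`, integral over `k[X]` (`X ↦ j̄`), is the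
reduction of an element of `O` integral over `Q̄[X]` (`X ↦ j`) -/
theorem hS2_level (hℓM : ¬ ℓ ∣ M) (hA : A.LiesOverPrime ℓ) {g : ℕ}
    (hF : IsCurveOfGenus Qb (FBar M) g) (hFk : IsCurveOfGenus (kRes A) (FRes A M) g)
    [Algebra Qb[X] (FBar M)] [IsScalarTower Qb Qb[X] (FBar M)]
    [Algebra (IsLocalRing.ResidueField A)[X] (FRes A M)]
    [IsScalarTower (IsLocalRing.ResidueField A) (IsLocalRing.ResidueField A)[X] (FRes A M)]
    (hyX : algebraMap Qb[X] (FBar M) X = Gin0.jF M)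
    (hzX : algebraMap (IsLocalRing.ResidueField A)[X] (FRes A M) X = Gink.jK A M)
    {Bk : Type*} [CommRing Bk] [Algebra (IsLocalRing.ResidueField A)[X] Bk]
    [Algebra Bk (FRes A M)] [IsScalarTower (IsLocalRing.ResidueField A)[X] Bk (FRes A M)]
    [Algebra.IsIntegral (IsLocalRing.ResidueField A)[X] Bk] (b : Bk) :
    ∃ β : FBar M, β ∈ (gaussDatum M A hℓM hA).O ∧ IsIntegral Qb[X] β ∧
      (gaussDatum M A hℓM hA).redF β = algebraMap Bk (FRes A M) b := by
  have := hF.hasPrincipalDivisors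
  have := hFk.hasPrincipalDivisors
  exact GaussDatum.exists_lift_of_chart (gaussDatum M A hℓM hA) hyX
    (hzX.trans (gaussDatum_redF_jF M A hℓM hA).symm)
    (gaussDatum_isFrameFamily_jF M A hℓM hA) (Gin0.transcendental_jF M) hF hFk
    (degree_polesOf_jF_eq M A hℓM hA) b

end Fermat.Agent.S18lib.V
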