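/-
S18lib / Weak / Inert  (helper2)

**Inert extension of a weak reduction datum** (package (W-b)).

`G : GaussDatum A F Fk`, `F'/F` and `Fk'/Fk` finite simple extensions generated by `t`, `t̄` whose
minimal polynomials are the images of ONE monic polynomial `pO ∈ O[X]` (so the reduction of the
minimal polynomial of `t` stays irreducible: `[Fk(t̄) : Fk] = [F(t) : F]`).  Then the Gauss valuation
extends (uniquely) to `F'` with valuation ring `O' = O[t] = ⊕_{j<d} O t^j` and residue field `Fk'`: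
`I.datum : GaussDatum A F' Fk'`.
-/
import Fermat.Agent.S18lib.Weak.Lemmas

set_option autoImplicit false

noncomputable section

namespace Fermat.Agent.S18lib

open Polynomial

variable {L : Type*} [Field L] {A : ValuationSubring L}
variable {F : Type*} [Field F] [Algebra L F]
variable {Fk : Type*} [Field Fk] [Algebra (IsLocalRing.ResidueField A) Fk]

/-- Input of the inert extension: power bases of `F'/F`, `Fk'/Fk` whose minimal polynomials both
come from the monic `pO ∈ O[X]`. -/
structure InertInput (G : GaussDatum A F Fk) (F' : Type*) [Field F'] [Algebra F F']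
    (Fk' : Type*) [Field Fk'] [Algebra Fk Fk'] where
  pb : PowerBasis F F'
  pbk : PowerBasis Fk Fk'
  pO : G.O[X]
  monic : pO.Monic
  map_subtype : pO.map G.O.subtype = minpoly F pb.gen
  map_red : pO.map G.red = minpoly Fk pbk.gen

namespace InertInput

variable {G : GaussDatum A F Fk} {F' : Type*} [Field F'] [Algebra F F']
variable {Fk' : Type*} [Field Fk'] [Algebra Fk Fk']
variable (I : InertInput G F' Fk')

local notation "k" => IsLocalRing.ResidueField A

/-- the generator upstairs -/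
abbrev t : F' := I.pb.gen

/-- the generator downstairs -/
abbrev tk : Fk' := I.pbk.gen

/-- the degree -/
def d : ℕ := I.pO.natDegree

theorem natDegree_minpoly : (minpoly F I.t).natDegree = I.d := by
  rw [← I.map_subtype, I.monic.natDegree_map, d]

theorem natDegree_minpolyk : (minpoly Fk I.tk).natDegree = I.d := by
  rw [← I.map_red, I.monic.natDegree_map, d]

theorem d_pos : 0 < I.d := by
  rw [← I.natDegree_minpoly]
  exact minpoly.natDegree_pos (I.pb.isIntegral_gen)

theorem pO_ne_one : I.pO ≠ 1 := by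
  intro h
  have := I.d_pos
  rw [d, h, natDegree_one] at this
  exact lt_irrefl _ this

/-- evaluation at `t` -/
def phi : G.O[X] →+* F' := eval₂RingHom ((algebraMap F F').comp G.O.subtype) I.t

/-- evaluation of the reduction at `t̄` -/
def rho : G.O[X] →+* Fk' := eval₂RingHom ((algebraMap Fk Fk').comp G.red) I.tk

theorem phi_apply (g : G.O[X]) : I.phi g = aeval I.t (g.map G.O.subtype) := by
  rw [phi, coe_eval₂RingHom, aeval_def, eval₂_map]

theorem rho_apply (g : G.O[X]) : I.rho g = aeval I.tk (g.map G.red) := by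
  rw [rho, coe_eval₂RingHom, aeval_def, eval₂_map]

theorem phi_pO : I.phi I.pO = 0 := by
  rw [phi_apply, I.map_subtype, minpoly.aeval]

theorem rho_pO : I.rho I.pO = 0 := by
  rw [rho_apply, I.map_red, minpoly.aeval]

theorem phi_C (a : G.O) : I.phi (C a) = algebraMap F F' (a : F) := by
  simp [phi]

theorem rho_C (a : G.O) : I.rho (C a) = algebraMap Fk Fk' (G.red a) := by
  simp [rho]

theorem phi_X : I.phi X = I.t := by simp [phi]

theorem rho_X : I.rho X = I.tk := by simp [rho]

theorem eq_zero_of_aeval {g : F[X]} (hdeg : g.natDegree < I.d) (h : aeval I.t g = 0) : g = 0 := by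
  by_contra hg
  have := natDegree_le_natDegree (minpoly.degree_le_of_ne_zero F I.t hg h)
  rw [I.natDegree_minpoly] at this
  omega

theorem eq_zero_of_aevalk {g : Fk[X]} (hdeg : g.natDegree < I.d) (h : aeval I.tk g = 0) :
    g = 0 := by
  by_contra hg
  have := natDegree_le_natDegree (minpoly.degree_le_of_ne_zero Fk I.tk hg h)
  rw [I.natDegree_minpolyk] at this
  omega

theorem natDegree_map_subtype (g : G.O[X]) : (g.map G.O.subtype).natDegree = g.natDegree :=
  natDegree_map_eq_of_injective Subtype.val_injective g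

theorem eq_zero_of_phi {g : G.O[X]} (hdeg : g.natDegree < I.d) (h : I.phi g = 0) : g = 0 := by
  rw [phi_apply] at h
  have := I.eq_zero_of_aeval (by rwa [natDegree_map_subtype]) h
  exact (Polynomial.map_eq_zero_iff Subtype.val_injective).1 this

theorem natDegree_modByMonic_lt (g : G.O[X]) : (g %ₘ I.pO).natDegree < I.d :=
  Polynomial.natDegree_modByMonic_lt g I.monic I.pO_ne_one

theorem phi_modByMonic (g : G.O[X]) : I.phi (g %ₘ I.pO) = I.phi g := by
  conv_rhs => rw [← modByMonic_add_div g I.pO]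
  rw [map_add, map_mul, phi_pO, zero_mul, add_zero]

theorem rho_modByMonic (g : G.O[X]) : I.rho (g %ₘ I.pO) = I.rho g := by
  conv_rhs => rw [← modByMonic_add_div g I.pO]
  rw [map_add, map_mul, rho_pO, zero_mul, add_zero]

theorem ker_phi_le : RingHom.ker I.phi ≤ RingHom.ker I.rho := by
  intro g hg
  rw [RingHom.mem_ker] at hg ⊢
  have h0 : g %ₘ I.pO = 0 :=
    I.eq_zero_of_phi (I.natDegree_modByMonic_lt g) (by rw [phi_modByMonic, hg])
  rw [← rho_modByMonic, h0, map_zero]

/-- the subring `O[t]` -/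
def Osub : Subring F' := I.phi.range

theorem mem_Osub {x : F'} : x ∈ I.Osub ↔ ∃ g : G.O[X], I.phi g = x := Iff.rfl

theorem phi_mem (g : G.O[X]) : I.phi g ∈ I.Osub := ⟨g, rfl⟩

theorem exists_lt_of_mem {x : F'} (hx : x ∈ I.Osub) :
    ∃ g : G.O[X], g.natDegree < I.d ∧ I.phi g = x := by
  obtain ⟨g, rfl⟩ := hx
  exact ⟨g %ₘ I.pO, I.natDegree_modByMonic_lt g, I.phi_modByMonic g⟩

/-- the reduction on `O[t]` -/
def red0 : I.Osub →+* Fk' :=
  I.phi.rangeRestrict.liftOfSurjective I.phi.rangeRestrict_surjective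
    ⟨I.rho, by rw [RingHom.ker_rangeRestrict]; exact I.ker_phi_le⟩

theorem red0_phi (g : G.O[X]) : I.red0 ⟨I.phi g, I.phi_mem g⟩ = I.rho g := by
  have := RingHom.liftOfRightInverse_comp_apply I.phi.rangeRestrict
    (Function.surjInv I.phi.rangeRestrict_surjective)
    (Function.rightInverse_surjInv I.phi.rangeRestrict_surjective)
    (⟨I.rho, by rw [RingHom.ker_rangeRestrict]; exact I.ker_phi_le⟩ :
      { g : G.O[X] →+* Fk' // RingHom.ker I.phi.rangeRestrict ≤ RingHom.ker g }) g
  exact this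

theorem red0_surjective : Function.Surjective I.red0 := by
  intro y
  obtain ⟨h, rfl⟩ := I.pbk.exists_eq_aeval' y
  obtain ⟨g, rfl⟩ := Polynomial.map_surjective G.red G.red_surjective h
  exact ⟨⟨I.phi g, I.phi_mem g⟩, by rw [red0_phi, rho_apply]⟩


theorem pb_dim : I.pb.dim = I.d := by
  rw [← I.natDegree_minpoly, I.pb.natDegree_minpoly]

/-! ### constants -/

variable [Algebra L F'] [IsScalarTower L F F']

theorem phi_C_algebraMap (c : L) (hc : algebraMap L F c ∈ G.O) :
    I.phi (C ⟨algebraMap L F c, hc⟩) = algebraMap L F' c := by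
  rw [phi_C, IsScalarTower.algebraMap_apply L F F']

theorem algebraMap_mem_Osub {c : L} (hc : c ∈ A) : algebraMap L F' c ∈ I.Osub :=
  ⟨C ⟨algebraMap L F c, (G.algebraMap_mem_iff c).2 hc⟩, I.phi_C_algebraMap c _⟩

variable [Algebra (IsLocalRing.ResidueField A) Fk'] [IsScalarTower (IsLocalRing.ResidueField A) Fk Fk']

theorem red0_algebraMap {c : L} (hc : c ∈ A) :
    I.red0 ⟨algebraMap L F' c, I.algebraMap_mem_Osub hc⟩
      = algebraMap k Fk' (IsLocalRing.residue A ⟨c, hc⟩) := by
  have h1 : (⟨algebraMap L F' c, I.algebraMap_mem_Osub hc⟩ : I.Osub)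
      = ⟨I.phi (C ⟨algebraMap L F c, (G.algebraMap_mem_iff c).2 hc⟩), I.phi_mem _⟩ :=
    Subtype.ext (I.phi_C_algebraMap c _).symm
  rw [h1, red0_phi, rho_C, G.red_algebraMap ⟨c, hc⟩, ← IsScalarTower.algebraMap_apply]

/-! ### primitive representatives -/

omit [Algebra (IsLocalRing.ResidueField A) Fk'] [IsScalarTower (IsLocalRing.ResidueField A) Fk Fk'] in
/-- every nonzero `x ∈ F'` is `c⁻¹ • x₀` with `x₀ ∈ O[t]` of nonzero reduction -/
theorem exists_const_mul {x : F'} (hx : x ≠ 0) :
    ∃ c : L, c ≠ 0 ∧ ∃ g : G.O[X], g.natDegree < I.d ∧ I.phi g = algebraMap L F' c * x ∧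
      I.rho g ≠ 0 := by
  classical
  obtain ⟨h, hdeg, rfl⟩ := I.pb.exists_eq_aeval x
  rw [I.pb_dim] at hdeg
  have hh0 : h ≠ 0 := by
    rintro rfl
    exact hx (by simp)
  -- the coefficient vector
  set c : Fin I.d → F := fun j => h.coeff j with hc
  have hc0 : c ≠ 0 := by
    intro h0
    apply hh0
    ext j
    by_cases hj : j < I.d
    · have := congrFun h0 ⟨j, hj⟩
      simpa [hc] using this
    · rw [coeff_eq_zero_of_natDegree_lt (by omega), coeff_zero]
  obtain ⟨i₀, hi₀, hdiv⟩ := exists_max_coeff G.O c hc0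
  obtain ⟨cc, hcc, u, hu⟩ := G.exists_const_mul_isUnit (c i₀) hi₀
  -- the scaled polynomial has coefficients in `O`
  set h' : F[X] := C (algebraMap L F cc) * h with hh'
  have hcoeff : ∀ j, h'.coeff j ∈ G.O := by
    intro j
    rw [hh', coeff_C_mul]
    by_cases hj : j < I.d
    · have hcj : c ⟨j, hj⟩ = h.coeff j := rfl
      have h1 : algebraMap L F cc * h.coeff j = ((u : G.O) : F) * (c ⟨j, hj⟩ / c i₀) := by
        rw [← hu, hcj]
        field_simp
      rw [h1]
      exact G.O.mul_mem _ _ (u : G.O).2 (hdiv _)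
    · rw [coeff_eq_zero_of_natDegree_lt (by omega), mul_zero]
      exact G.O.zero_mem
  have hlift : h' ∈ lifts G.O.subtype := by
    rw [lifts_iff_coeff_lifts]
    intro j
    exact ⟨⟨_, hcoeff j⟩, rfl⟩
  obtain ⟨g, hg⟩ := (mem_lifts _).1 hlift
  have hgdeg : g.natDegree < I.d := by
    rw [← natDegree_map_subtype, hg, hh']
    refine lt_of_le_of_lt (natDegree_C_mul_le _ _) hdeg
  refine ⟨cc, hcc, g, hgdeg, ?_, ?_⟩
  · rw [phi_apply, hg, hh', map_mul, aeval_C, IsScalarTower.algebraMap_apply L F F']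
  · rw [rho_apply]
    intro h0
    have h1 := I.eq_zero_of_aevalk
      (lt_of_le_of_lt (natDegree_map_le) hgdeg) h0
    have h2 : (g.map G.red).coeff i₀ = 0 := by rw [h1, coeff_zero]
    rw [coeff_map] at h2
    have h3 : g.coeff i₀ = (u : G.O) := by
      apply Subtype.ext
      have := congrArg (fun q => q.coeff (i₀ : ℕ)) hg
      simp only [coeff_map, hh', coeff_C_mul] at this
      rw [ValuationSubring.subtype_apply] at this
      rw [this, ← hu]
    rw [h3] at h2
    exact G.red_unit_ne_zero u h2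

/-! ### units -/

theorem inv_mem_of_red0_ne_zero {x : F'} (hx : x ∈ I.Osub) (h : I.red0 ⟨x, hx⟩ ≠ 0) :
    x⁻¹ ∈ I.Osub := by
  obtain ⟨⟨y, hy⟩, hyr⟩ := I.red0_surjective (I.red0 ⟨x, hx⟩)⁻¹
  have hxy : I.red0 (⟨x, hx⟩ * ⟨y, hy⟩) = 1 := by
    rw [map_mul, hyr, mul_inv_cancel₀ h]
  have hxy0 : x * y ≠ 0 := by
    intro h0
    have : (⟨x, hx⟩ * ⟨y, hy⟩ : I.Osub) = 0 := Subtype.ext h0
    rw [this, map_zero] at hxy
    exact zero_ne_one hxy
  have hx0 : x ≠ 0 := left_ne_zero_of_mul hxy0
  have hy0 : y ≠ 0 := right_ne_zero_of_mul hxy0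
  obtain ⟨c, hc, g, -, hg, hgr⟩ := I.exists_const_mul (inv_ne_zero hxy0)
  have hcF : algebraMap L F' c ≠ 0 := (_root_.map_ne_zero _).2 hc
  rcases A.mem_or_inv_mem c with hcA | hcA
  · -- then `c` is a unit or we get a contradiction
    by_cases hcinv : c⁻¹ ∈ A
    · -- z = c⁻¹ z₀
      have hz : (x * y)⁻¹ ∈ I.Osub := by
        have : (x * y)⁻¹ = algebraMap L F' c⁻¹ * I.phi g := by
          rw [hg, ← mul_assoc, ← map_mul, inv_mul_cancel₀ hc, map_one, one_mul]
        rw [this]
        exact I.Osub.mul_mem (I.algebraMap_mem_Osub hcinv) (I.phi_mem g)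
      have : x⁻¹ = y * (x * y)⁻¹ := by
        field_simp
      rw [this]
      exact I.Osub.mul_mem hy hz
    · exfalso
      -- residue of c vanishes
      have hres : IsLocalRing.residue A ⟨c, hcA⟩ = 0 := by
        rw [IsLocalRing.residue_eq_zero_iff, IsLocalRing.mem_maximalIdeal, mem_nonunits_iff]
        intro hu
        obtain ⟨v, hv⟩ := hu
        apply hcinv
        have : c⁻¹ = ((v⁻¹ : Aˣ) : A) := by
          have h1 : c * (((v⁻¹ : Aˣ) : A) : L) = 1 := by
            have := congrArg (fun a : A => (a : L)) v.mul_inv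
            simpa [hv] using this
          exact (eq_inv_of_mul_eq_one_right h1).symm ▸ rfl
        rw [this]
        exact ((v⁻¹ : Aˣ) : A).2
      -- z₀ = c + z₀ w
      set w : I.Osub := 1 - ⟨x, hx⟩ * ⟨y, hy⟩ with hw
      have hwr : I.red0 w = 0 := by rw [hw, map_sub, map_one, hxy, sub_self]
      have hz0 : (⟨I.phi g, I.phi_mem g⟩ : I.Osub)
          = ⟨algebraMap L F' c, I.algebraMap_mem_Osub hcA⟩ + ⟨I.phi g, I.phi_mem g⟩ * w := by
        apply Subtype.ext
        show I.phi g = algebraMap L F' c + I.phi g * (1 - x * y)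
        rw [hg]
        field_simp
        ring
      have := congrArg I.red0 hz0
      rw [map_add, map_mul, hwr, mul_zero, add_zero, red0_phi, I.red0_algebraMap hcA, hres,
        map_zero] at this
      exact hgr this
  · -- c⁻¹ ∈ A
    have hz : (x * y)⁻¹ ∈ I.Osub := by
      have : (x * y)⁻¹ = algebraMap L F' c⁻¹ * I.phi g := by
        rw [hg, ← mul_assoc, ← map_mul, inv_mul_cancel₀ hc, map_one, one_mul]
      rw [this]
      exact I.Osub.mul_mem (I.algebraMap_mem_Osub hcA) (I.phi_mem g)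
    have : x⁻¹ = y * (x * y)⁻¹ := by
      field_simp
    rw [this]
    exact I.Osub.mul_mem hy hz

theorem mem_or_inv_mem (x : F') : x ∈ I.Osub ∨ x⁻¹ ∈ I.Osub := by
  by_cases hx : x = 0
  · left; rw [hx]; exact I.Osub.zero_mem
  obtain ⟨c, hc, g, -, hg, hgr⟩ := I.exists_const_mul hx
  have hcF : algebraMap L F' c ≠ 0 := (_root_.map_ne_zero _).2 hc
  have hinv : (I.phi g)⁻¹ ∈ I.Osub :=
    I.inv_mem_of_red0_ne_zero (I.phi_mem g) (by rw [red0_phi]; exact hgr)
  rcases A.mem_or_inv_mem c with hcA | hcA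
  · right
    have : x⁻¹ = algebraMap L F' c * (I.phi g)⁻¹ := by
      rw [hg, mul_inv, ← mul_assoc, mul_inv_cancel₀ hcF, one_mul]
    rw [this]
    exact I.Osub.mul_mem (I.algebraMap_mem_Osub hcA) hinv
  · left
    have : x = algebraMap L F' c⁻¹ * I.phi g := by
      rw [hg, ← mul_assoc, ← map_mul, inv_mul_cancel₀ hc, map_one, one_mul]
    rw [this]
    exact I.Osub.mul_mem (I.algebraMap_mem_Osub hcA) (I.phi_mem g)


/-! ### the datum -/

/-- the valuation ring `O' = O[t]` of the extended Gauss valuation -/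
def O' : ValuationSubring F' :=
  { I.Osub with mem_or_inv_mem' := I.mem_or_inv_mem }

theorem mem_O' {x : F'} : x ∈ I.O' ↔ x ∈ I.Osub := Iff.rfl

/-- the reduction map `O' → Fk'` -/
def red' : I.O' →+* Fk' where
  toFun x := I.red0 ⟨x.1, x.2⟩
  map_one' := map_one I.red0
  map_mul' _ _ := map_mul I.red0 _ _
  map_zero' := map_zero I.red0
  map_add' _ _ := map_add I.red0 _ _

theorem red'_apply (x : I.O') : I.red' x = I.red0 ⟨x.1, x.2⟩ := rfl

theorem algebraMap_mem_O'_iff (c : L) : algebraMap L F' c ∈ I.O' ↔ c ∈ A := by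
  refine ⟨fun h => ?_, fun h => I.algebraMap_mem_Osub h⟩
  obtain ⟨g, hgdeg, hg⟩ := I.exists_lt_of_mem h
  -- compare with the constant polynomial
  have h1 : aeval I.t (g.map G.O.subtype - C (algebraMap L F c)) = 0 := by
    rw [map_sub, ← phi_apply, hg, aeval_C, ← IsScalarTower.algebraMap_apply, sub_self]
  have h2 : (g.map G.O.subtype - C (algebraMap L F c)).natDegree < I.d := by
    refine lt_of_le_of_lt (natDegree_sub_le _ _) ?_
    rw [natDegree_C, natDegree_map_subtype, max_lt_iff]
    exact ⟨hgdeg, I.d_pos⟩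
  have h3 := I.eq_zero_of_aeval h2 h1
  have h4 : algebraMap L F c = ((g.coeff 0 : G.O) : F) := by
    have := congrArg (fun q => q.coeff 0) h3
    simp only [coeff_sub, coeff_map, coeff_C_zero, coeff_zero] at this
    rw [ValuationSubring.subtype_apply] at this
    exact (sub_eq_zero.1 this).symm
  rw [← G.algebraMap_mem_iff, h4]
  exact (g.coeff 0).2

/-- **the inert extension of the weak datum** -/
def datum : GaussDatum A F' Fk' where
  O := I.O'
  algebraMap_mem_iff := I.algebraMap_mem_O'_iff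
  red := I.red'
  red_surjective := by
    intro y
    obtain ⟨⟨x, hx⟩, rfl⟩ := I.red0_surjective y
    exact ⟨⟨x, hx⟩, rfl⟩
  red_algebraMap := by
    intro a h
    exact I.red0_algebraMap a.2
  exists_const_mul_isUnit := by
    intro f hf
    obtain ⟨c, hc, g, -, hg, hgr⟩ := I.exists_const_mul hf
    have hinv : (I.phi g)⁻¹ ∈ I.Osub :=
      I.inv_mem_of_red0_ne_zero (I.phi_mem g) (by rw [red0_phi]; exact hgr)
    have hne : I.phi g ≠ 0 := by
      rw [hg]
      exact mul_ne_zero ((_root_.map_ne_zero _).2 hc) hf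
    refine ⟨c, hc, ⟨⟨I.phi g, I.phi_mem g⟩, ⟨(I.phi g)⁻¹, hinv⟩, ?_, ?_⟩, hg.symm⟩
    · exact Subtype.ext (mul_inv_cancel₀ hne)
    · exact Subtype.ext (inv_mul_cancel₀ hne)

@[simp] theorem datum_O : I.datum.O = I.O' := rfl

@[simp] theorem datum_red : I.datum.red = I.red' := rfl

/-! ### API -/

theorem phi_mem_datum (g : G.O[X]) : I.phi g ∈ I.datum.O := I.phi_mem g

theorem mem_datum_O_iff {x : F'} :
    x ∈ I.datum.O ↔ ∃ g : G.O[X], g.natDegree < I.d ∧ I.phi g = x :=
  ⟨fun h => I.exists_lt_of_mem h, fun ⟨g, _, hg⟩ => hg ▸ I.phi_mem g⟩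

theorem datum_redF_phi (g : G.O[X]) : I.datum.redF (I.phi g) = I.rho g := by
  rw [I.datum.redF_of_mem (I.phi_mem_datum g)]
  exact I.red0_phi g

theorem algebraMap_mem_datum {x : F} (hx : x ∈ G.O) : algebraMap F F' x ∈ I.datum.O := by
  rw [← I.phi_C ⟨x, hx⟩]
  exact I.phi_mem _

theorem datum_redF_algebraMap_of_mem {x : F} (hx : x ∈ G.O) :
    I.datum.redF (algebraMap F F' x) = algebraMap Fk Fk' (G.redF x) := by
  rw [← I.phi_C ⟨x, hx⟩, datum_redF_phi, rho_C, G.redF_of_mem hx]

theorem t_mem_datum : I.t ∈ I.datum.O := by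
  rw [← I.phi_X]
  exact I.phi_mem _

theorem datum_redF_t : I.datum.redF I.t = I.tk := by
  rw [← I.phi_X, datum_redF_phi, rho_X]

/-- membership of `algebraMap F F' x` in `O'` is membership of `x` in `O` -/
theorem algebraMap_mem_datum_iff {x : F} : algebraMap F F' x ∈ I.datum.O ↔ x ∈ G.O := by
  refine ⟨fun h => ?_, fun h => I.algebraMap_mem_datum h⟩
  obtain ⟨g, hgdeg, hg⟩ := I.exists_lt_of_mem h
  have h1 : aeval I.t (g.map G.O.subtype - C x) = 0 := by
    rw [map_sub, ← phi_apply, hg, aeval_C, sub_self]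
  have h2 : (g.map G.O.subtype - C x).natDegree < I.d := by
    refine lt_of_le_of_lt (natDegree_sub_le _ _) ?_
    rw [natDegree_C, natDegree_map_subtype, max_lt_iff]
    exact ⟨hgdeg, I.d_pos⟩
  have h3 := I.eq_zero_of_aeval h2 h1
  have h4 : x = ((g.coeff 0 : G.O) : F) := by
    have := congrArg (fun q => q.coeff 0) h3
    simp only [coeff_sub, coeff_map, coeff_C_zero, coeff_zero] at this
    rw [ValuationSubring.subtype_apply] at this
    exact (sub_eq_zero.1 this).symm
  rw [h4]
  exact (g.coeff 0).2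

theorem datum_redF_algebraMap (x : F) :
    I.datum.redF (algebraMap F F' x) = algebraMap Fk Fk' (G.redF x) := by
  by_cases hx : x ∈ G.O
  · exact I.datum_redF_algebraMap_of_mem hx
  · rw [G.redF_of_not_mem hx, map_zero,
      I.datum.redF_of_not_mem (fun h => hx (I.algebraMap_mem_datum_iff.1 h))]

end InertInput

end Fermat.Agent.S18lib
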