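/-
S18lib / Weak / InertFrame  (helper2)

Frame transport along an inert extension (package (W-b), second half):
a frame `(y, θ_i)` of `G` gives the frame `(y, θ_i t^j)` of `I.datum`; in particular the inert
extension of a datum with a frame has orthonormal bases.
-/
import Fermat.Agent.S18lib.Weak.Inert
import Fermat.Agent.S18lib.Weak.Frame

set_option autoImplicit false

noncomputable section

namespace Fermat.Agent.S18lib

open Polynomial

namespace InertInput

variable {L : Type*} [Field L] {A : ValuationSubring L}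
variable {F : Type*} [Field F] [Algebra L F]
variable {Fk : Type*} [Field Fk] [Algebra (IsLocalRing.ResidueField A) Fk]
variable {G : GaussDatum A F Fk} {F' : Type*} [Field F'] [Algebra F F']
variable {Fk' : Type*} [Field Fk'] [Algebra Fk Fk']
variable (I : InertInput G F' Fk')

local notation "k" => IsLocalRing.ResidueField A

/-- the transported family `θ_i t^j` -/
def frameFam {n : ℕ} (θ : Fin n → F) : Fin (n * I.d) → F' :=
  fun m => algebraMap F F' (θ (finProdFinEquiv.symm m).1) * I.t ^ ((finProdFinEquiv.symm m).2 : ℕ)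

theorem frameFam_apply {n : ℕ} (θ : Fin n → F) (i : Fin n) (j : Fin I.d) :
    I.frameFam θ (finProdFinEquiv (i, j)) = algebraMap F F' (θ i) * I.t ^ (j : ℕ) := by
  simp [frameFam]

theorem pbk_dim : I.pbk.dim = I.d := by
  rw [← I.natDegree_minpolyk, I.pbk.natDegree_minpoly]

/-- the powers `t̄^j`, `j < d`, are linearly independent over `Fk` -/
theorem linearIndependent_tk : LinearIndependent Fk (fun j : Fin I.d => I.tk ^ (j : ℕ)) := by
  have h := I.pbk.basis.linearIndependent
  rw [I.pbk.coe_basis] at h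
  have hinj : Function.Injective (Fin.cast I.pbk_dim.symm) := Fin.cast_injective _
  exact h.comp _ hinj

variable [Algebra L F']

section Rep

variable {n : ℕ} (θ : Fin n → F) (y : F)

/-- the representability predicate -/
def Rep (x : F') : Prop :=
  ∃ (q : L[X]) (p : Fin (n * I.d) → L[X]), q ≠ 0 ∧
    x * aeval (algebraMap F F' y) q = ∑ m, aeval (algebraMap F F' y) (p m) * I.frameFam θ m

theorem rep_zero : I.Rep θ y 0 :=
  ⟨1, 0, one_ne_zero, by simp⟩

theorem rep_add {x₁ x₂ : F'} (h₁ : I.Rep θ y x₁) (h₂ : I.Rep θ y x₂) : I.Rep θ y (x₁ + x₂) := by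
  obtain ⟨q₁, p₁, hq₁, e₁⟩ := h₁
  obtain ⟨q₂, p₂, hq₂, e₂⟩ := h₂
  refine ⟨q₁ * q₂, fun m => p₁ m * q₂ + p₂ m * q₁, mul_ne_zero hq₁ hq₂, ?_⟩
  have : (x₁ + x₂) * aeval (algebraMap F F' y) (q₁ * q₂)
      = (x₁ * aeval (algebraMap F F' y) q₁) * aeval (algebraMap F F' y) q₂
        + (x₂ * aeval (algebraMap F F' y) q₂) * aeval (algebraMap F F' y) q₁ := by
    rw [map_mul]; ring
  rw [this, e₁, e₂, Finset.sum_mul, Finset.sum_mul, ← Finset.sum_add_distrib]
  refine Finset.sum_congr rfl fun m _ => ?_
  rw [map_add, map_mul, map_mul]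
  ring

theorem rep_sum {ι : Type*} (s : Finset ι) (f : ι → F') (h : ∀ i ∈ s, I.Rep θ y (f i)) :
    I.Rep θ y (∑ i ∈ s, f i) := by
  classical
  induction s using Finset.induction_on with
  | empty => simpa using I.rep_zero θ y
  | insert a s ha ih =>
    rw [Finset.sum_insert ha]
    exact I.rep_add θ y (h a (Finset.mem_insert_self a s))
      (ih fun i hi => h i (Finset.mem_insert_of_mem hi))

end Rep

variable [IsScalarTower L F F']

theorem rep_monomial {n : ℕ} {θ : Fin n → F} {y : F} (h : WFrame.IsFrameFamily G y θ) (g : F)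
    (j : Fin I.d) : I.Rep θ y (algebraMap F F' g * I.t ^ (j : ℕ)) := by
  classical
  obtain ⟨q, p, hq, e⟩ := h.exists_repr g
  refine ⟨q, fun m => if (finProdFinEquiv.symm m).2 = j then p (finProdFinEquiv.symm m).1 else 0,
    hq, ?_⟩
  have h1 : algebraMap F F' g * I.t ^ (j : ℕ) * aeval (algebraMap F F' y) q
      = algebraMap F F' (g * aeval y q) * I.t ^ (j : ℕ) := by
    rw [map_mul, aeval_algebraMap_apply]; ring
  rw [h1, e, map_sum, Finset.sum_mul]
  rw [← Equiv.sum_comp finProdFinEquiv, Fintype.sum_prod_type]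
  refine Finset.sum_congr rfl fun i _ => ?_
  simp only [Equiv.symm_apply_apply, frameFam_apply]
  rw [Finset.sum_eq_single j]
  · rw [if_pos rfl, map_mul, aeval_algebraMap_apply]; ring
  · intro j' _ hj'
    rw [if_neg hj', map_zero, zero_mul]
  · intro hj
    exact absurd (Finset.mem_univ j) hj

theorem rep_all {n : ℕ} {θ : Fin n → F} {y : F} (h : WFrame.IsFrameFamily G y θ) (x : F') :
    I.Rep θ y x := by
  obtain ⟨g, hdeg, rfl⟩ := I.pb.exists_eq_aeval x
  rw [I.pb_dim] at hdeg
  rw [aeval_eq_sum_range' hdeg]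
  refine I.rep_sum θ y _ _ fun j hj => ?_
  rw [Algebra.smul_def]
  exact I.rep_monomial h (g.coeff j) ⟨j, Finset.mem_range.1 hj⟩

variable [Algebra (IsLocalRing.ResidueField A) Fk'] [IsScalarTower (IsLocalRing.ResidueField A) Fk Fk']

theorem datum_redF_frameFam {n : ℕ} {θ : Fin n → F} (hθ : ∀ i, θ i ∈ G.O) (i : Fin n)
    (j : Fin I.d) :
    I.datum.redF (I.frameFam θ (finProdFinEquiv (i, j)))
      = algebraMap Fk Fk' (G.redF (θ i)) * I.tk ^ (j : ℕ) := by
  rw [frameFam_apply, I.datum.redF_mul (I.algebraMap_mem_datum (hθ i))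
    (I.datum.O.pow_mem I.t_mem_datum _), I.datum.redF_pow I.t_mem_datum, datum_redF_t,
    datum_redF_algebraMap]

/-- **frame transport**: `(y, θ_i)` frame of `G` ⇒ `(y, θ_i t^j)` frame of the inert extension -/
theorem isFrameFamily {n : ℕ} {θ : Fin n → F} {y : F} (h : WFrame.IsFrameFamily G y θ) :
    WFrame.IsFrameFamily I.datum (algebraMap F F' y) (I.frameFam θ) where
  n_pos := Nat.mul_pos h.n_pos I.d_pos
  y_mem := I.algebraMap_mem_datum h.y_mem
  θ_mem := by
    intro m
    exact I.datum.O.mul_mem _ _ (I.algebraMap_mem_datum (h.θ_mem _))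
      (I.datum.O.pow_mem I.t_mem_datum _)
  exists_repr := I.rep_all h
  red_indep := by
    have hb := h.red_indep
    have hc := I.linearIndependent_tk
    have hbc := linearIndependent_smul hb hc
    -- reindex
    let e : ((ℕ × Fin n) × Fin I.d) ≃ (ℕ × Fin (n * I.d)) :=
      (Equiv.prodAssoc _ _ _).trans (Equiv.prodCongr (Equiv.refl ℕ) finProdFinEquiv)
    refine (linearIndependent_equiv' e ?_).1 hbc
    funext m
    obtain ⟨⟨a, i⟩, j⟩ := m
    simp only [Function.comp_apply, e, Equiv.trans_apply, Equiv.prodAssoc_apply,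
      Equiv.prodCongr_apply, Equiv.coe_refl, Prod.map_apply, id_eq]
    rw [I.datum_redF_frameFam h.θ_mem, datum_redF_algebraMap, Algebra.smul_def, map_mul, map_pow]
    ring

/-- the inert extension of a datum with a frame has orthonormal bases -/
theorem hasOrthonormalBases {n : ℕ} {θ : Fin n → F} {y : F} (h : WFrame.IsFrameFamily G y θ) :
    I.datum.HasOrthonormalBases :=
  (I.isFrameFamily h).hasOrthonormalBases

end InertInput

end Fermat.Agent.S18lib
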